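import Fermat.Agent.RED.RH.P1
import Fermat.Agent.RED.DRH.P1

/-!
# RED / RH : the concrete projective line `E = K(X)`, `A₀ = K[X]`, `A₁ = 𝒪_∞ = DRH.Rinf K`
-/

set_option autoImplicit false
set_option linter.unusedSectionVars false

namespace Fermat.Agent.RED

open Polynomial

variable (K : Type*) [Field K]

/-- The image of `K[X]` in `K(X)`. -/
noncomputable def polyS : Subalgebra K (RatFunc K) :=
  (IsScalarTower.toAlgHom K K[X] (RatFunc K)).range

variable {K}

theorem mem_polyS {t : RatFunc K} : t ∈ polyS K ↔ t ∈ (algebraMap K[X] (RatFunc K)).range :=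
  Iff.rfl

theorem mem_Rinf_iff_range {t : RatFunc K} :
    t ∈ DRH.Rinf K ↔ t ∈ (algebraMap ↥(DRH.Rinf K) (RatFunc K)).range := by
  constructor
  · intro h; exact ⟨⟨t, h⟩, rfl⟩
  · rintro ⟨s, rfl⟩; exact s.2

theorem intDegree_X_pow (m : ℕ) : ((RatFunc.X : RatFunc K) ^ m).intDegree = m := by
  have := DRH.intDegree_X_zpow (K := K) (m : ℤ)
  rwa [zpow_natCast] at this

theorem intDegree_X_inv_pow (m : ℕ) : ((RatFunc.X : RatFunc K)⁻¹ ^ m).intDegree = -(m : ℤ) := by
  rw [inv_pow, RatFunc.intDegree_inv, intDegree_X_pow]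

theorem X_mul_mem_Rinf {s : RatFunc K} (hs : s ∈ DRH.Mdeg K 1) : RatFunc.X * s ∈ DRH.Rinf K := by
  rcases hs with rfl | hs
  · simp [DRH.mem_Rinf]
  · by_cases h0 : s = 0
    · simp [h0, DRH.mem_Rinf]
    · rw [DRH.mem_Rinf, RatFunc.intDegree_mul RatFunc.X_ne_zero h0, RatFunc.intDegree_X]
      omega

variable (K) in
theorem isP1_ratFunc : IsP1 (polyS K) (DRH.Rinf K) (RatFunc.X : RatFunc K) where
  ne_zero := RatFunc.X_ne_zero
  mem_zero := ⟨Polynomial.X, RatFunc.algebraMap_X⟩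
  inv_mem := by
    rw [DRH.mem_Rinf, RatFunc.intDegree_inv, RatFunc.intDegree_X]; omega
  decomp := fun f => by
    obtain ⟨p, s, hs, rfl⟩ := DRH.exists_poly_add f
    refine ⟨algebraMap _ _ p, ⟨p, rfl⟩, RatFunc.X * s, X_mul_mem_Rinf hs, ?_⟩
    rw [inv_mul_cancel_left₀ RatFunc.X_ne_zero]
  disj := by
    rintro _ ⟨p, rfl⟩ h
    by_contra h0
    have h0' : algebraMap K[X] (RatFunc K) p ≠ 0 := h0
    have h1 : (RatFunc.X * algebraMap K[X] (RatFunc K) p).intDegree ≤ 0 := h
    rw [RatFunc.intDegree_mul RatFunc.X_ne_zero h0', RatFunc.intDegree_X,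
      RatFunc.intDegree_polynomial] at h1
    omega
  const := by
    intro b hb
    obtain ⟨p, s, hs, rfl⟩ := DRH.exists_poly_add b
    have h1 : algebraMap K[X] (RatFunc K) p ∈ DRH.Mdeg K 0 := by
      have h2 := (DRH.Mdeg K 0).sub_mem (DRH.mem_Rinf_iff_Mdeg.1 hb)
        (DRH.Mdeg_anti (by norm_num : (0 : ℤ) ≤ 1) hs)
      simpa using h2
    have h3 : p.natDegree = 0 := by
      rcases h1 with h1 | h1
      · have : p = 0 := by simpa using h1
        simp [this]
      · rw [RatFunc.intDegree_polynomial] at h1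
        omega
    refine ⟨p.coeff 0, ?_⟩
    have h4 : algebraMap K[X] (RatFunc K) p = algebraMap K (RatFunc K) (p.coeff 0) := by
      conv_lhs => rw [Polynomial.eq_C_of_natDegree_eq_zero h3]
      rw [← Polynomial.algebraMap_eq, ← IsScalarTower.algebraMap_apply]
    rw [h4, add_sub_cancel_left]
    exact X_mul_mem_Rinf hs
  arch := by
    intro f hf
    refine ⟨(1 - f.intDegree).toNat, ?_⟩
    rw [DRH.mem_Rinf, RatFunc.intDegree_mul (pow_ne_zero _ RatFunc.X_ne_zero) hf, intDegree_X_pow]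
    omega
  bdd := by
    intro f
    by_cases hf : f = 0
    · exact ⟨0, by simp [hf, DRH.mem_Rinf]⟩
    refine ⟨f.intDegree.toNat, ?_⟩
    rw [DRH.mem_Rinf, RatFunc.intDegree_mul (pow_ne_zero _ (inv_ne_zero RatFunc.X_ne_zero)) hf,
      intDegree_X_inv_pow]
    omega

end Fermat.Agent.RED
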