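import Fermat.Agent.RED.RH.Chart

/-!
# RED / RH : the abstract Riemann–Hurwitz formula

Two charts `A₀, A₁ ⊆ E` of the projective line, integral closures `B₀, B₁` in `F`.
`2 χ(B₀, B₁) = 2 n₁ - dim B₀/Diff₀ - dim B₁/Diff₁`, `χ(B₀, xᵐ B₁) = χ(B₀, B₁) + m n₁`, and
`h¹(B₀, xᵐ B₁) = 0` for large `m`.
-/

set_option autoImplicit false
set_option linter.unusedSectionVars false

namespace Fermat.Agent.RED

open Module nonZeroDivisors FractionalIdeal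

variable {K E F : Type*} [Field K] [Field E] [Field F] [Algebra K E] [Algebra K F] [Algebra E F]
  [IsScalarTower K E F] [FiniteDimensional E F] [Algebra.IsSeparable E F]
variable {S₀ S₁ : Subalgebra K E} {x : E}

/-- Euler characteristic of a pair of subspaces. -/
noncomputable def chi {V : Type*} [AddCommGroup V] [Module K V] (M N : Submodule K V) : ℤ :=
  (hZero M N : ℤ) - hOne M N

namespace IsP1

/-- Vanishing of `h⁰` of the dual pair. -/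
theorem perp_inf_eq_bot (h : IsP1 S₀ S₁ x) {N₀ N₁ : Submodule K F}
    (v : Basis (Fin (finrank E F)) E F) (h0 : ∀ i, ∀ a ∈ S₀, a • v i ∈ N₀)
    (h1 : ∀ i, ∀ a ∈ S₁, (x⁻¹ * a) • v i ∈ N₁) : h.perp N₀ ⊓ h.perp N₁ = ⊥ := by
  rw [eq_bot_iff]
  rintro y ⟨hy0, hy1⟩
  have hy0 := h.mem_perp.1 hy0
  have hy1 := h.mem_perp.1 hy1
  have ht : ∀ i, Algebra.trace E F (y * v i) = 0 := by
    intro i
    apply h.disj
    · apply h.mem_zero_of_res
      intro a ha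
      have := hy0 _ (h0 i a ha)
      rwa [mul_smul_comm, map_smul, smul_eq_mul] at this
    · have h2 : x ^ 2 * (x⁻¹ * Algebra.trace E F (y * v i)) ∈ S₁ := by
        apply h.mem_infty_of_res
        intro a ha
        have := hy1 _ (h1 i a ha)
        rw [mul_smul_comm, map_smul, smul_eq_mul] at this
        rw [← this]
        congr 1
        ring
      convert h2 using 1
      linear_combination (-(x * Algebra.trace E F (y * v i))) * h.mul_inv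
  rw [Submodule.mem_bot]
  apply (traceForm_nondegenerate E F).1
  intro z
  rw [← v.sum_repr z, map_sum]
  refine Finset.sum_eq_zero fun i _ => ?_
  rw [map_smul, Algebra.traceForm_apply, ht i, smul_zero]

end IsP1

theorem differentIdeal_ne_bot' (A E F B : Type*) [CommRing A] [IsDomain A] [IsIntegrallyClosed A]
    [Field E] [Algebra A E] [IsFractionRing A E] [Field F] [Algebra E F] [FiniteDimensional E F]
    [Algebra.IsSeparable E F] [CommRing B] [IsDedekindDomain B] [Algebra B F] [IsFractionRing B F]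
    [Algebra A B] [Algebra A F] [IsScalarTower A E F] [IsScalarTower A B F]
    [IsIntegralClosure B A F] [Module.IsTorsionFree A B] : differentIdeal A B ≠ ⊥ := by
  intro hbot
  have h1 := coeIdeal_differentIdeal A E F B
  rw [hbot, FractionalIdeal.coeIdeal_bot] at h1
  exact inv_ne_zero (FractionalIdeal.dual_ne_zero A E
    (one_ne_zero : (1 : FractionalIdeal B⁰ F) ≠ 0)) h1.symm

variable (A₀ : Type*) {B₀ : Type*} [CommRing A₀] [IsDomain A₀] [IsIntegrallyClosed A₀]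
  [Algebra A₀ E] [IsFractionRing A₀ E] [CommRing B₀] [IsDedekindDomain B₀] [Algebra B₀ F]
  [IsFractionRing B₀ F] [Algebra A₀ B₀] [Algebra A₀ F] [IsScalarTower A₀ E F]
  [IsScalarTower A₀ B₀ F] [IsIntegralClosure B₀ A₀ F] [Algebra K B₀] [IsScalarTower K B₀ F]
variable (A₁ : Type*) {B₁ : Type*} [CommRing A₁] [IsDomain A₁] [IsIntegrallyClosed A₁]
  [Algebra A₁ E] [IsFractionRing A₁ E] [CommRing B₁] [IsDedekindDomain B₁] [Algebra B₁ F]
  [IsFractionRing B₁ F] [Algebra A₁ B₁] [Algebra A₁ F] [IsScalarTower A₁ E F]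
  [IsScalarTower A₁ B₁ F] [IsIntegralClosure B₁ A₁ F] [Algebra K B₁] [IsScalarTower K B₁ F]

/-- The fractional ideal `xᵏ B₁`. -/
noncomputable def tw (B₁ : Type*) {F : Type*} [CommRing B₁] [Field F] [Algebra B₁ F]
    [IsFractionRing B₁ F] [Algebra E F] (x : E) (k : ℤ) : FractionalIdeal B₁⁰ F :=
  spanSingleton B₁⁰ (algebraMap E F x ^ k)

/-- The Serre dual in the chart at infinity. -/
noncomputable def starInf (x : E) (J : FractionalIdeal B₁⁰ F) : FractionalIdeal B₁⁰ F :=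
  tw B₁ x (-2) * FractionalIdeal.dual A₁ E J

section tw

omit [FiniteDimensional E F] [Algebra.IsSeparable E F] [IsDedekindDomain B₁] in
theorem tw_ne_zero (hx : x ≠ 0) (k : ℤ) : tw B₁ (F := F) x k ≠ 0 := by
  rw [tw, Ne, spanSingleton_eq_zero_iff]
  exact zpow_ne_zero _ (by rwa [Ne, map_eq_zero])

omit [FiniteDimensional E F] [Algebra.IsSeparable E F] [IsDedekindDomain B₁] in
theorem tw_add (hx : x ≠ 0) (k l : ℤ) :
    tw B₁ (F := F) x (k + l) = tw B₁ x k * tw B₁ x l := by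
  rw [tw, tw, tw, spanSingleton_mul_spanSingleton, zpow_add₀ (by rwa [Ne, map_eq_zero])]

omit [FiniteDimensional E F] [Algebra.IsSeparable E F] [IsDedekindDomain B₁] in
theorem tw_zero : tw B₁ (F := F) x 0 = 1 := by
  rw [tw, zpow_zero, spanSingleton_one]

end tw

theorem starInf_ne_zero (hx : x ≠ 0) {J : FractionalIdeal B₁⁰ F} (hJ : J ≠ 0) :
    starInf A₁ x J ≠ 0 :=
  mul_ne_zero (tw_ne_zero hx _) (FractionalIdeal.dual_ne_zero A₁ E hJ)

theorem starInf_starInf (hx : x ≠ 0) {J : FractionalIdeal B₁⁰ F} (_hJ : J ≠ 0) :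
    starInf A₁ x (starInf A₁ x J) = J := by
  have hc := tw_ne_zero (B₁ := B₁) (F := F) hx (-2)
  have hD : FractionalIdeal.dual A₁ E (1 : FractionalIdeal B₁⁰ F) ≠ 0 :=
    FractionalIdeal.dual_ne_zero A₁ E one_ne_zero
  rw [starInf, starInf, FractionalIdeal.dual_eq_mul_inv A₁ E (tw B₁ x (-2) * _),
    FractionalIdeal.dual_eq_mul_inv A₁ E J, mul_inv, mul_inv, inv_inv]
  calc _ = (tw B₁ x (-2) * (tw B₁ x (-2))⁻¹) * (FractionalIdeal.dual A₁ E 1 *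
        (FractionalIdeal.dual A₁ E (1 : FractionalIdeal B₁⁰ F))⁻¹) * J := by ring
    _ = J := by rw [mul_inv_cancel₀ hc, mul_inv_cancel₀ hD, one_mul, one_mul]

variable (h : IsP1 S₀ S₁ x) (hS₀ : ∀ t, t ∈ S₀ ↔ t ∈ (algebraMap A₀ E).range)
  (hS₁ : ∀ t, t ∈ S₁ ↔ t ∈ (algebraMap A₁ E).range)

include h hS₀ hS₁

theorem finite_hOne_fsub {I : FractionalIdeal B₀⁰ F} {J : FractionalIdeal B₁⁰ F} (hI : I ≠ 0)
    (hJ : J ≠ 0) : FiniteDimensional K (F ⧸ (fsub K I ⊔ fsub K J)) :=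
  h.finite_quotient_sup (isBigZero_fsub A₀ hS₀ hI) (isBigInfty_fsub A₁ h hS₁ hJ)

theorem hOne_fsub {I : FractionalIdeal B₀⁰ F} {J : FractionalIdeal B₁⁰ F} (hI : I ≠ 0)
    (hJ : J ≠ 0) : hOne (fsub K I) (fsub K J) =
      hZero (fsub K (FractionalIdeal.dual A₀ E I)) (fsub K (starInf A₁ x J)) := by
  rw [h.hOne_eq_hZero_perp (isBigZero_fsub A₀ hS₀ hI) (isBigInfty_fsub A₁ h hS₁ hJ),
    perp_fsub_zero A₀ h hS₀ hI, perp_fsub_infty A₁ h hS₁ hJ]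
  rfl

theorem finite_hZero_fsub {I : FractionalIdeal B₀⁰ F} {J : FractionalIdeal B₁⁰ F} (hI : I ≠ 0)
    (hJ : J ≠ 0) : FiniteDimensional K ↥(fsub K I ⊓ fsub K J) := by
  have hI' := FractionalIdeal.dual_ne_zero A₀ E hI
  have hJ' := starInf_ne_zero A₁ h.ne_zero hJ
  have := h.finite_perp_inf (isBigZero_fsub A₀ hS₀ hI') (isBigInfty_fsub A₁ h hS₁ hJ')
  rw [perp_fsub_zero A₀ h hS₀ hI', perp_fsub_infty A₁ h hS₁ hJ', FractionalIdeal.dual_dual] at this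
  have h2 : spanSingleton B₁⁰ (algebraMap E F x ^ (-2 : ℤ)) *
      FractionalIdeal.dual A₁ E (starInf A₁ x J) = J := starInf_starInf A₁ h.ne_zero hJ
  rwa [h2] at this

/-- `χ` changes sign under Serre duality. -/
theorem chi_dual {I : FractionalIdeal B₀⁰ F} {J : FractionalIdeal B₁⁰ F} (hI : I ≠ 0)
    (hJ : J ≠ 0) : chi (fsub K (FractionalIdeal.dual A₀ E I)) (fsub K (starInf A₁ x J)) =
      - chi (fsub K I) (fsub K J) := by
  have hI' := FractionalIdeal.dual_ne_zero A₀ E hI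
  have hJ' := starInf_ne_zero A₁ h.ne_zero hJ
  have h1 := hOne_fsub (K := K) A₀ A₁ h hS₀ hS₁ hI hJ
  have h2 := hOne_fsub (K := K) A₀ A₁ h hS₀ hS₁ hI' hJ'
  rw [FractionalIdeal.dual_dual, starInf_starInf A₁ h.ne_zero hJ] at h2
  rw [chi, chi, h1, h2]
  ring

theorem chi_left_mul {I : FractionalIdeal B₀⁰ F} {J : FractionalIdeal B₁⁰ F} (hI : I ≠ 0)
    (hJ : J ≠ 0) {𝔞 : Ideal B₀} (h𝔞 : 𝔞 ≠ ⊥) :
    chi (fsub K I) (fsub K J) =
      chi (fsub K (I * (𝔞 : FractionalIdeal B₀⁰ F))) (fsub K J) + finrank K (B₀ ⧸ 𝔞) := by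
  have h𝔞' : (𝔞 : FractionalIdeal B₀⁰ F) ≠ 0 := by
    rwa [Ne, FractionalIdeal.coeIdeal_eq_zero]
  have hle : I * (𝔞 : FractionalIdeal B₀⁰ F) ≤ I := by
    calc I * (𝔞 : FractionalIdeal B₀⁰ F) ≤ I * 1 :=
          mul_le_mul_right FractionalIdeal.coeIdeal_le_one I
      _ = I := mul_one I
  have := (chi_left_of_le (fsub K J) (fsub_mono (K := K) hle)
    (finite_hZero_fsub A₀ A₁ h hS₀ hS₁ hI hJ)
    (finite_hOne_fsub A₀ A₁ h hS₀ hS₁ (mul_ne_zero hI h𝔞') hJ)).2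
  rw [relDim_fsub_mul hI h𝔞] at this
  exact this

theorem chi_right_mul {I : FractionalIdeal B₀⁰ F} {J : FractionalIdeal B₁⁰ F} (hI : I ≠ 0)
    (hJ : J ≠ 0) {𝔞 : Ideal B₁} (h𝔞 : 𝔞 ≠ ⊥) :
    chi (fsub K I) (fsub K J) =
      chi (fsub K I) (fsub K (J * (𝔞 : FractionalIdeal B₁⁰ F))) + finrank K (B₁ ⧸ 𝔞) := by
  have h𝔞' : (𝔞 : FractionalIdeal B₁⁰ F) ≠ 0 := by
    rwa [Ne, FractionalIdeal.coeIdeal_eq_zero]
  have hle : J * (𝔞 : FractionalIdeal B₁⁰ F) ≤ J := by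
    calc J * (𝔞 : FractionalIdeal B₁⁰ F) ≤ J * 1 :=
          mul_le_mul_right FractionalIdeal.coeIdeal_le_one J
      _ = J := mul_one J
  have := (chi_right_of_le (fsub K I) (fsub_mono (K := K) hle)
    (finite_hZero_fsub A₀ A₁ h hS₀ hS₁ hI hJ)
    (finite_hOne_fsub A₀ A₁ h hS₀ hS₁ hI (mul_ne_zero hJ h𝔞'))).2
  rw [relDim_fsub_mul hJ h𝔞] at this
  exact this

/-- Twisting by `x` raises `χ` by `n₁ = dim B₁ / x⁻¹ B₁`. -/
theorem chi_tw_succ {I : FractionalIdeal B₀⁰ F} {J : FractionalIdeal B₁⁰ F} (hI : I ≠ 0)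
    (hJ : J ≠ 0) {π : B₁} (hπ : algebraMap B₁ F π = (algebraMap E F x)⁻¹) (k : ℤ) :
    chi (fsub K I) (fsub K (tw B₁ x (k + 1) * J)) =
      chi (fsub K I) (fsub K (tw B₁ x k * J)) + finrank K (B₁ ⧸ Ideal.span {π}) := by
  have hπ0 : Ideal.span {π} ≠ ⊥ := by
    rw [Ne, Ideal.span_singleton_eq_bot]
    rintro rfl
    rw [map_zero] at hπ
    exact inv_ne_zero (by rw [Ne, map_eq_zero]; exact h.ne_zero) hπ.symm
  have h1 := chi_right_mul (K := K) A₀ A₁ h hS₀ hS₁ hI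
    (mul_ne_zero (tw_ne_zero (B₁ := B₁) (F := F) h.ne_zero (k + 1)) hJ) hπ0
  have h2 : ((Ideal.span {π} : Ideal B₁) : FractionalIdeal B₁⁰ F) = tw B₁ x (-1) := by
    rw [FractionalIdeal.coeIdeal_span_singleton, hπ, tw, zpow_neg_one]
  have h3 : tw B₁ x (k + 1) * J * tw B₁ x (-1) = tw B₁ (F := F) x k * J := by
    rw [mul_right_comm, ← tw_add h.ne_zero]
    congr 2
    ring
  rw [h2, h3] at h1
  exact h1

theorem chi_tw_mul {I : FractionalIdeal B₀⁰ F} {J : FractionalIdeal B₁⁰ F} (hI : I ≠ 0)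
    (hJ : J ≠ 0) {π : B₁} (hπ : algebraMap B₁ F π = (algebraMap E F x)⁻¹) (k : ℤ) :
    chi (fsub K I) (fsub K (tw B₁ x k * J)) =
      chi (fsub K I) (fsub K J) + k * finrank K (B₁ ⧸ Ideal.span {π}) := by
  induction k using Int.induction_on with
  | zero => rw [tw_zero, one_mul]; simp
  | succ i ih =>
    rw [chi_tw_succ A₀ A₁ h hS₀ hS₁ hI hJ hπ, ih]
    ring
  | pred i ih =>
    have := chi_tw_succ (K := K) A₀ A₁ h hS₀ hS₁ hI hJ hπ (-(i : ℤ) - 1)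
    rw [sub_add_cancel, ih] at this
    linarith

/-- **Abstract Riemann–Hurwitz**: the Euler characteristic of the structure sheaf. -/
theorem two_mul_chi_one [Module.IsTorsionFree A₀ B₀] [Module.IsTorsionFree A₁ B₁] {π : B₁}
    (hπ : algebraMap B₁ F π = (algebraMap E F x)⁻¹) :
    2 * chi (fsub K (1 : FractionalIdeal B₀⁰ F)) (fsub K (1 : FractionalIdeal B₁⁰ F)) =
      2 * (finrank K (B₁ ⧸ Ideal.span {π}) : ℤ) - finrank K (B₀ ⧸ differentIdeal A₀ B₀)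
        - finrank K (B₁ ⧸ differentIdeal A₁ B₁) := by
  have hD₀ : FractionalIdeal.dual A₀ E (1 : FractionalIdeal B₀⁰ F) ≠ 0 :=
    FractionalIdeal.dual_ne_zero A₀ E one_ne_zero
  have hD₁ : FractionalIdeal.dual A₁ E (1 : FractionalIdeal B₁⁰ F) ≠ 0 :=
    FractionalIdeal.dual_ne_zero A₁ E one_ne_zero
  have e1 := chi_dual (K := K) A₀ A₁ h hS₀ hS₁ (one_ne_zero : (1 : FractionalIdeal B₀⁰ F) ≠ 0)
    (one_ne_zero : (1 : FractionalIdeal B₁⁰ F) ≠ 0)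
  have e2 := chi_tw_mul (K := K) A₀ A₁ h hS₀ hS₁ hD₀ hD₁ hπ (-2)
  have e3 := chi_left_mul (K := K) A₀ A₁ h hS₀ hS₁ hD₀ hD₁
    (differentIdeal_ne_bot' A₀ E F B₀)
  have e4 := chi_right_mul (K := K) A₀ A₁ h hS₀ hS₁ (one_ne_zero : (1 : FractionalIdeal B₀⁰ F) ≠ 0)
    hD₁ (differentIdeal_ne_bot' A₁ E F B₁)
  rw [coeIdeal_differentIdeal A₀ E F B₀, mul_inv_cancel₀ hD₀] at e3
  rw [coeIdeal_differentIdeal A₁ E F B₁, mul_inv_cancel₀ hD₁] at e4
  rw [starInf, e2, e3, e4] at e1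
  linarith

/-- `h¹(B₀, xᵐ B₁) = 0` for large `m`. -/
theorem exists_hOne_eq_zero : ∃ m₀ : ℕ, ∀ m : ℕ, m₀ ≤ m →
    hOne (fsub K (1 : FractionalIdeal B₀⁰ F)) (fsub K (tw B₁ (F := F) x m)) = 0 := by
  obtain ⟨v, hv⟩ := isBigZero_fsub (K := K) A₀ hS₀ (one_ne_zero : (1 : FractionalIdeal B₀⁰ F) ≠ 0)
  obtain ⟨m₀, hm₀⟩ := h.exists_uniform
    (isBigInfty_fsub (K := K) A₁ h hS₁ (one_ne_zero : (1 : FractionalIdeal B₁⁰ F) ≠ 0)) v
  refine ⟨m₀, fun m hm => ?_⟩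
  have hX : algebraMap E F x ≠ 0 := by
    rw [Ne, map_eq_zero]; exact h.ne_zero
  rw [h.hOne_eq_hZero_perp
    (isBigZero_fsub A₀ hS₀ (one_ne_zero : (1 : FractionalIdeal B₀⁰ F) ≠ 0))
    (isBigInfty_fsub A₁ h hS₁ (tw_ne_zero h.ne_zero _)), hZero,
    h.perp_inf_eq_bot v hv, finrank_bot]
  intro i a ha
  obtain ⟨k, rfl⟩ := Nat.exists_eq_add_of_le hm
  have h1 := hm₀ i (x⁻¹ ^ (k + 1) * a) (S₁.mul_mem (h.inv_pow_mem _) ha)
  rw [mem_fsub, FractionalIdeal.mem_one_iff] at h1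
  obtain ⟨b, hb⟩ := h1
  rw [mem_fsub, tw, FractionalIdeal.mem_spanSingleton]
  refine ⟨b, ?_⟩
  rw [Algebra.smul_def, hb, Algebra.smul_def, Algebra.smul_def, zpow_natCast, ← mul_assoc,
    ← map_pow, mul_comm _ (algebraMap E F (x ^ (m₀ + k))), ← mul_assoc, ← map_mul]
  congr 2
  have e1 := h.pow_mul_inv_pow (m₀ + k)
  rw [pow_add x⁻¹] at e1
  rw [pow_succ]
  linear_combination (x⁻¹ * a) * e1

/-- **Theorem A'** : the dimension of `B₀ ∩ xᵐ B₁` for large `m`. -/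
theorem exists_two_mul_hZero [Module.IsTorsionFree A₀ B₀] [Module.IsTorsionFree A₁ B₁] {π : B₁}
    (hπ : algebraMap B₁ F π = (algebraMap E F x)⁻¹) : ∃ m₀ : ℕ, ∀ m : ℕ, m₀ ≤ m →
    2 * (hZero (fsub K (1 : FractionalIdeal B₀⁰ F)) (fsub K (tw B₁ (F := F) x m)) : ℤ) =
      2 * m * (finrank K (B₁ ⧸ Ideal.span {π}) : ℤ) + 2 * (finrank K (B₁ ⧸ Ideal.span {π}) : ℤ)
        - finrank K (B₀ ⧸ differentIdeal A₀ B₀) - finrank K (B₁ ⧸ differentIdeal A₁ B₁) := by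
  obtain ⟨m₀, hm₀⟩ := exists_hOne_eq_zero (K := K) (F := F) (B₀ := B₀) (B₁ := B₁) A₀ A₁ h hS₀ hS₁
  refine ⟨m₀, fun m hm => ?_⟩
  have e1 := two_mul_chi_one (K := K) (B₀ := B₀) A₀ A₁ h hS₀ hS₁ hπ
  have e2 := chi_tw_mul (K := K) A₀ A₁ h hS₀ hS₁ (one_ne_zero : (1 : FractionalIdeal B₀⁰ F) ≠ 0)
    (one_ne_zero : (1 : FractionalIdeal B₁⁰ F) ≠ 0) hπ m
  rw [mul_one] at e2
  have e3 : chi (fsub K (1 : FractionalIdeal B₀⁰ F)) (fsub K (tw B₁ (F := F) x m)) =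
      hZero (fsub K (1 : FractionalIdeal B₀⁰ F)) (fsub K (tw B₁ (F := F) x m)) := by
    rw [chi, hm₀ m hm]; simp
  rw [e3] at e2
  rw [e2]
  linarith

end Fermat.Agent.RED
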