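import Fermat.Agent.RED.RH.Chi

/-!
# RED / RH : `K`-dimensions of quotients of fractional ideals
-/

set_option autoImplicit false
set_option linter.unusedSectionVars false

namespace Fermat.Agent.RED

open Module nonZeroDivisors

section General

variable {K V M : Type*} [Field K] [AddCommGroup V] [Module K V] [AddCommGroup M] [Module K M]

theorem relDim_map_of_injective (φ : M →ₗ[K] V) (hφ : Function.Injective φ) (P : Submodule K M) :
    relDim (P.map φ) (LinearMap.range φ) = finrank K (M ⧸ P) := by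
  symm
  refine (Submodule.Quotient.equiv P ((P.map φ).submoduleOf (LinearMap.range φ))
    (LinearEquiv.ofInjective φ hφ) ?_).finrank_eq
  ext ⟨y, hy⟩
  constructor
  · rintro ⟨m, hm, hmy⟩
    refine ⟨m, hm, ?_⟩
    exact congrArg Subtype.val hmy
  · rintro ⟨m, hm, hmy⟩
    exact ⟨m, hm, Subtype.ext hmy⟩

/-- Transport of relative dimensions along a linear automorphism. -/
theorem relDim_map_equiv (e : V ≃ₗ[K] V) (B' B : Submodule K V) :
    relDim (B'.map (e : V →ₗ[K] V)) (B.map (e : V →ₗ[K] V)) = relDim B' B := by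
  symm
  refine (Submodule.Quotient.equiv (B'.submoduleOf B)
    ((B'.map (e : V →ₗ[K] V)).submoduleOf (B.map (e : V →ₗ[K] V))) (e.submoduleMap B) ?_).finrank_eq
  ext ⟨y, hy⟩
  constructor
  · rintro ⟨m, hm, hmy⟩
    refine ⟨m, hm, ?_⟩
    exact congrArg Subtype.val hmy
  · rintro ⟨m, hm, hmy⟩
    obtain ⟨b, hb, hby⟩ := hy
    have : m = b := e.injective (hmy.trans hby.symm)
    subst this
    exact ⟨⟨m, hb⟩, hm, Subtype.ext hmy⟩

end General

variable (K : Type*) [Field K] {B F : Type*} [CommRing B] [IsDedekindDomain B] [Field F]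
  [Algebra B F] [IsFractionRing B F] [Algebra K F] [Algebra K B] [IsScalarTower K B F]

/-- The `K`-subspace underlying a fractional ideal. -/
def fsub (I : FractionalIdeal B⁰ F) : Submodule K F := (I : Submodule B F).restrictScalars K

variable {K}

theorem mem_fsub {I : FractionalIdeal B⁰ F} {z : F} : z ∈ fsub K I ↔ z ∈ I := Iff.rfl

theorem fsub_mono {I J : FractionalIdeal B⁰ F} (h : I ≤ J) : fsub K I ≤ fsub K J := h

theorem relDim_fsub (I J : FractionalIdeal B⁰ F) :
    relDim (fsub K J) (fsub K I) =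
      finrank K (↥(I : Submodule B F) ⧸ (J : Submodule B F).comap (I : Submodule B F).subtype) :=
  rfl

theorem relDim_fsub_ideal (𝔞 : Ideal B) :
    relDim (fsub K (𝔞 : FractionalIdeal B⁰ F)) (fsub K (1 : FractionalIdeal B⁰ F)) =
      finrank K (B ⧸ 𝔞) := by
  have h := relDim_map_of_injective ((Algebra.linearMap B F).restrictScalars K)
    (IsFractionRing.injective B F) (𝔞.restrictScalars K)
  have h1 : LinearMap.range ((Algebra.linearMap B F).restrictScalars K)
      = fsub K (1 : FractionalIdeal B⁰ F) := by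
    ext z
    rw [mem_fsub, FractionalIdeal.mem_one_iff]
    rfl
  have h2 : (𝔞.restrictScalars K).map ((Algebra.linearMap B F).restrictScalars K)
      = fsub K (𝔞 : FractionalIdeal B⁰ F) := by
    ext z
    rw [mem_fsub, FractionalIdeal.mem_coeIdeal]
    rfl
  rw [h1, h2] at h
  exact h

theorem relDim_fsub_mul {I : FractionalIdeal B⁰ F} (hI : I ≠ 0) {𝔞 : Ideal B} (h𝔞 : 𝔞 ≠ ⊥) :
    relDim (fsub K (I * (𝔞 : FractionalIdeal B⁰ F))) (fsub K I) = finrank K (B ⧸ 𝔞) := by
  have h𝔞' : (𝔞 : FractionalIdeal B⁰ F) ≠ 0 := by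
    rwa [Ne, FractionalIdeal.coeIdeal_eq_zero]
  have hle : I * (𝔞 : FractionalIdeal B⁰ F) ≤ I := by
    calc I * (𝔞 : FractionalIdeal B⁰ F) ≤ I * 1 :=
          mul_le_mul_right FractionalIdeal.coeIdeal_le_one I
      _ = I := mul_one I
  have e := FractionalIdeal.quotientEquiv I (I * (𝔞 : FractionalIdeal B⁰ F)) 1
    (𝔞 : FractionalIdeal B⁰ F) (by rw [one_mul]) hle FractionalIdeal.coeIdeal_le_one h𝔞' hI
  rw [← relDim_fsub_ideal (K := K) (F := F), relDim_fsub, relDim_fsub]
  exact (e.restrictScalars K).finrank_eq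

end Fermat.Agent.RED
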