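import Fermat.Agent.RED.RH.Duality
import Fermat.Agent.RED.RH.Frac

/-!
# RED / RH : fractional ideals of the two charts as lattices

For a chart `A ⊆ E` (Dedekind, `Frac A = E`) with integral closure `B` in `F`, nonzero fractional
ideals of `B` are "big", and their orthogonal for the residue pairing is the trace dual
(twisted by `x⁻²` in the chart at infinity).
-/

set_option autoImplicit false
set_option linter.unusedSectionVars false

namespace Fermat.Agent.RED

open Module nonZeroDivisors FractionalIdeal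

variable {K E F : Type*} [Field K] [Field E] [Field F] [Algebra K E] [Algebra K F] [Algebra E F]
  [IsScalarTower K E F] [FiniteDimensional E F] [Algebra.IsSeparable E F]
variable (A : Type*) {B : Type*} [CommRing A] [IsDomain A] [IsIntegrallyClosed A] [Algebra A E]
  [IsFractionRing A E] [CommRing B] [IsDedekindDomain B] [Algebra B F] [IsFractionRing B F]
  [Algebra A B] [Algebra A F] [IsScalarTower A E F] [IsScalarTower A B F] [IsIntegralClosure B A F]
  [Algebra K B] [IsScalarTower K B F]
variable {S₀ S₁ : Subalgebra K E} {x : E}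

omit [IsIntegrallyClosed A] [Algebra.IsSeparable E F] in
/-- Clearing denominators. -/
theorem exists_smul_mem (E : Type*) [Field E] [Algebra A E] [IsFractionRing A E] [Algebra E F]
    [IsScalarTower A E F] [FiniteDimensional E F]
    {I : FractionalIdeal B⁰ F} (hI : I ≠ 0) (f : F) : ∃ a : A, a ≠ 0 ∧ a • f ∈ I := by
  obtain ⟨j, hj0, hj⟩ := FractionalIdeal.exists_ne_zero_mem_isInteger hI
  have hj' : algebraMap B F j ≠ 0 := by
    rwa [Ne, map_eq_zero_iff _ (IsFractionRing.injective B F)]
  have halg : IsAlgebraic A (f / algebraMap B F j) :=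
    (IsFractionRing.isAlgebraic_iff A E F).mpr (Algebra.IsAlgebraic.isAlgebraic _)
  obtain ⟨a, ha, hint⟩ := halg.exists_integral_multiple
  obtain ⟨b, hb⟩ := (IsIntegralClosure.isIntegral_iff (A := B)).1 hint
  refine ⟨a, ha, ?_⟩
  have : a • f = b • algebraMap B F j := by
    rw [Algebra.smul_def b, hb, smul_mul_assoc, div_mul_cancel₀ _ hj']
  rw [this]
  exact Submodule.smul_mem _ b hj

omit [IsIntegrallyClosed A] [Algebra.IsSeparable E F] in
theorem smul_mem_of_mem_range {I : FractionalIdeal B⁰ F} {s : E}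
    (hs : s ∈ (algebraMap A E).range) {z : F} (hz : z ∈ I) : s • z ∈ I := by
  obtain ⟨a, rfl⟩ := hs
  rw [algebraMap_smul, ← algebraMap_smul B a z]
  exact Submodule.smul_mem _ _ hz

omit [IsIntegrallyClosed A] [Algebra.IsSeparable E F] in
theorem isBigZero_fsub (hS : ∀ t, t ∈ S₀ ↔ t ∈ (algebraMap A E).range)
    {I : FractionalIdeal B⁰ F} (hI : I ≠ 0) : IsBigZero S₀ (fsub K I) := by
  classical
  set u := Module.finBasis E F
  choose a ha hau using fun i => exists_smul_mem A E hI (u i)
  have hw : ∀ i, IsUnit (algebraMap A E (a i)) := fun i => by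
    rw [isUnit_iff_ne_zero, Ne, map_eq_zero_iff _ (IsFractionRing.injective A E)]
    exact ha i
  refine ⟨u.isUnitSMul hw, fun i s hs => ?_⟩
  rw [Basis.isUnitSMul_apply, mem_fsub, algebraMap_smul]
  exact smul_mem_of_mem_range A ((hS s).1 hs) (hau i)

omit [IsIntegrallyClosed A] [Algebra.IsSeparable E F] in
theorem isBigInfty_fsub (h : IsP1 S₀ S₁ x) (hS : ∀ t, t ∈ S₁ ↔ t ∈ (algebraMap A E).range)
    {J : FractionalIdeal B⁰ F} (hJ : J ≠ 0) : IsBigInfty S₁ x (fsub K J) := by
  intro f
  obtain ⟨a, ha, haf⟩ := exists_smul_mem A E hJ f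
  have ha' : algebraMap A E a ≠ 0 := by
    rwa [Ne, map_eq_zero_iff _ (IsFractionRing.injective A E)]
  obtain ⟨m, hm⟩ := h.bdd (algebraMap A E a)⁻¹
  refine ⟨m, fun s hs => ?_⟩
  have : (x⁻¹ ^ m * s) • f = (s * (x⁻¹ ^ m * (algebraMap A E a)⁻¹)) • (a • f) := by
    rw [← algebraMap_smul E a f, smul_smul]
    congr 1
    field_simp
  rw [this, mem_fsub]
  exact smul_mem_of_mem_range A ((hS _).1 (S₁.mul_mem hs hm)) haf

/-- In the finite chart, the orthogonal is the trace dual. -/
theorem perp_fsub_zero (h : IsP1 S₀ S₁ x) (hS : ∀ t, t ∈ S₀ ↔ t ∈ (algebraMap A E).range)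
    {I : FractionalIdeal B⁰ F} (hI : I ≠ 0) :
    h.perp (fsub K I) = fsub K (FractionalIdeal.dual A E I) := by
  ext y
  rw [h.mem_perp, mem_fsub, FractionalIdeal.mem_dual hI]
  constructor
  · intro hy z hz
    rw [← hS, Algebra.traceForm_apply]
    apply h.mem_zero_of_res
    intro s hs
    have := hy (s • z) (smul_mem_of_mem_range A ((hS s).1 hs) hz)
    rwa [mul_smul_comm, map_smul, smul_eq_mul] at this
  · intro hy z hz
    exact h.res_zero ((hS _).2 (hy z hz))

/-- In the chart at infinity, the orthogonal is the trace dual twisted by `x⁻²`. -/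
theorem perp_fsub_infty (h : IsP1 S₀ S₁ x) (hS : ∀ t, t ∈ S₁ ↔ t ∈ (algebraMap A E).range)
    {J : FractionalIdeal B⁰ F} (hJ : J ≠ 0) :
    h.perp (fsub K J) =
      fsub K (spanSingleton B⁰ (algebraMap E F x ^ (-2 : ℤ)) * FractionalIdeal.dual A E J) := by
  have hX : algebraMap E F x ≠ 0 := by
    rw [Ne, map_eq_zero]; exact h.ne_zero
  ext y
  rw [h.mem_perp, mem_fsub, FractionalIdeal.mem_singleton_mul]
  constructor
  · intro hy
    refine ⟨algebraMap E F x ^ 2 * y, ?_, ?_⟩
    · rw [FractionalIdeal.mem_dual hJ]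
      intro z hz
      rw [← hS, Algebra.traceForm_apply, ← map_pow, mul_assoc, ← Algebra.smul_def, map_smul,
        smul_eq_mul]
      apply h.mem_infty_of_res
      intro s hs
      have := hy (s • z) (smul_mem_of_mem_range A ((hS s).1 hs) hz)
      rwa [mul_smul_comm, map_smul, smul_eq_mul] at this
    · rw [← mul_assoc, ← zpow_natCast, ← zpow_add₀ hX]
      simp
  · rintro ⟨y', hy', rfl⟩ z hz
    rw [FractionalIdeal.mem_dual hJ] at hy'
    have h1 := (hS _).2 (hy' z hz)
    rw [Algebra.traceForm_apply] at h1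
    have h2 : algebraMap E F x ^ (-2 : ℤ) * y' * z = (x⁻¹ ^ 2) • (y' * z) := by
      rw [Algebra.smul_def, map_pow, map_inv₀, mul_assoc]
      congr 1
      rw [zpow_neg, inv_pow]
      norm_cast
    rw [h2, map_smul, smul_eq_mul]
    exact h.res_infty h1

end Fermat.Agent.RED
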