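import Mathlib

/-!
# RED / RH : Euler characteristic of a pair of subspaces

For two subspaces `A B` of a `K`-vector space `V` we put `hZero A B = dim (A ⊓ B)` and
`hOne A B = dim V ⧸ (A ⊔ B)`.  The difference is additive under finite-index changes.
-/

set_option autoImplicit false

namespace Fermat.Agent.RED

open Module

variable {K V : Type*} [Field K] [AddCommGroup V] [Module K V]

/-- `h⁰` of a pair of subspaces. -/
noncomputable def hZero (A B : Submodule K V) : ℕ := finrank K ↥(A ⊓ B)

/-- `h¹` of a pair of subspaces. -/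
noncomputable def hOne (A B : Submodule K V) : ℕ := finrank K (V ⧸ (A ⊔ B))

/-- The relative dimension `dim B / B'`. -/
noncomputable def relDim (B' B : Submodule K V) : ℕ := finrank K (↥B ⧸ B'.submoduleOf B)

theorem hZero_comm (A B : Submodule K V) : hZero A B = hZero B A := by
  rw [hZero, hZero, inf_comm]

theorem hOne_comm (A B : Submodule K V) : hOne A B = hOne B A := by
  rw [hOne, hOne, sup_comm]

/-- Additivity of the Euler characteristic in the second variable. -/
theorem chi_right_of_le (A : Submodule K V) {B' B : Submodule K V} (h : B' ≤ B)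
    (h0 : FiniteDimensional K ↥(A ⊓ B)) (h1 : FiniteDimensional K (V ⧸ (A ⊔ B'))) :
    FiniteDimensional K (↥B ⧸ B'.submoduleOf B) ∧
    (hZero A B : ℤ) - hOne A B = hZero A B' - hOne A B' + relDim B' B := by
  classical
  set q : V →ₗ[K] V ⧸ (A ⊔ B') := (A ⊔ B').mkQ with hq
  set φ : ↥B →ₗ[K] V ⧸ (A ⊔ B') := q ∘ₗ B.subtype with hφ
  have hker : B'.submoduleOf B ≤ LinearMap.ker φ := by
    intro b hb
    rw [LinearMap.mem_ker, hφ, LinearMap.comp_apply, hq, Submodule.mkQ_apply,
      Submodule.Quotient.mk_eq_zero]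
    exact Submodule.mem_sup_right hb
  set φb : (↥B ⧸ B'.submoduleOf B) →ₗ[K] V ⧸ (A ⊔ B') := (B'.submoduleOf B).liftQ φ hker with hφb
  set ψ : ↥(A ⊓ B) →ₗ[K] (↥B ⧸ B'.submoduleOf B) :=
    (B'.submoduleOf B).mkQ ∘ₗ Submodule.inclusion (inf_le_right : A ⊓ B ≤ B) with hψ
  -- range of `φb`
  have hrange : LinearMap.range φb = (A ⊔ B).map q := by
    rw [hφb, Submodule.range_liftQ, hφ, LinearMap.range_comp, Submodule.range_subtype,
      Submodule.map_sup]
    have : A.map q = ⊥ := by
      rw [← LinearMap.le_ker_iff_map, hq, Submodule.ker_mkQ]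
      exact le_sup_left
    rw [this, bot_sup_eq]
  -- kernel of `φb`
  have hkerb : LinearMap.ker φb = LinearMap.range ψ := by
    apply le_antisymm
    · intro z hz
      obtain ⟨b, rfl⟩ := Submodule.Quotient.mk_surjective _ z
      rw [LinearMap.mem_ker, hφb, Submodule.liftQ_apply, hφ, LinearMap.comp_apply, hq,
        Submodule.mkQ_apply, Submodule.Quotient.mk_eq_zero, Submodule.mem_sup] at hz
      obtain ⟨a, ha, b', hb', hab⟩ := hz
      have haB : a ∈ B := by
        have : a = (b : V) - b' := by rw [Submodule.subtype_apply] at hab; rw [← hab]; abel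
        rw [this]
        exact B.sub_mem b.2 (h hb')
      refine ⟨⟨a, ha, haB⟩, ?_⟩
      rw [hψ, LinearMap.comp_apply, Submodule.mkQ_apply, Submodule.Quotient.eq]
      show ((⟨a, haB⟩ : B) - b : B).1 ∈ B'
      have : ((⟨a, haB⟩ : B) - b : B).1 = - b' := by
        rw [Submodule.subtype_apply] at hab
        show a - (b : V) = - b'
        rw [← hab]; abel
      rw [this]
      exact B'.neg_mem hb'
    · rintro _ ⟨a, rfl⟩
      rw [LinearMap.mem_ker, hψ, LinearMap.comp_apply, hφb, Submodule.mkQ_apply,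
        Submodule.liftQ_apply, hφ, LinearMap.comp_apply, hq,
        Submodule.mkQ_apply, Submodule.Quotient.mk_eq_zero]
      exact Submodule.mem_sup_left a.2.1
  -- kernel of `ψ`
  have hkerψ : LinearMap.ker ψ = (A ⊓ B').submoduleOf (A ⊓ B) := by
    ext a
    rw [LinearMap.mem_ker, hψ, LinearMap.comp_apply, Submodule.mkQ_apply,
      Submodule.Quotient.mk_eq_zero]
    show (a : V) ∈ B' ↔ (a : V) ∈ A ⊓ B'
    exact ⟨fun hb => ⟨a.2.1, hb⟩, fun hb => hb.2⟩
  have hle : A ⊓ B' ≤ A ⊓ B := inf_le_inf_left A h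
  have e1 : finrank K ↥(LinearMap.ker ψ) = hZero A B' := by
    rw [hkerψ]
    exact (Submodule.submoduleOfEquivOfLe hle).finrank_eq
  have e2 := LinearMap.finrank_range_add_finrank_ker ψ
  have hfin1 : FiniteDimensional K ↥(LinearMap.ker φb) := by
    rw [hkerb]; infer_instance
  have hfin2 : FiniteDimensional K ((↥B ⧸ B'.submoduleOf B) ⧸ LinearMap.ker φb) :=
    LinearEquiv.finiteDimensional φb.quotKerEquivRange.symm
  have hfin : FiniteDimensional K (↥B ⧸ B'.submoduleOf B) :=
    Module.Finite.of_submodule_quotient (LinearMap.ker φb)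
  refine ⟨hfin, ?_⟩
  have e3 := LinearMap.finrank_range_add_finrank_ker φb
  have e4 := Submodule.finrank_quotient_add_finrank ((A ⊔ B).map q)
  have e5 : finrank K ((V ⧸ (A ⊔ B')) ⧸ (A ⊔ B).map q) = hOne A B :=
    (Submodule.quotientQuotientEquivQuotient (A ⊔ B') (A ⊔ B)
      (sup_le_sup_left h A)).finrank_eq
  rw [hkerb, hrange] at e3
  rw [e1] at e2
  rw [e5] at e4
  have e6 : finrank K (V ⧸ (A ⊔ B')) = hOne A B' := rfl
  have e7 : finrank K ↥(A ⊓ B) = hZero A B := rfl
  have e8 : finrank K (↥B ⧸ B'.submoduleOf B) = relDim B' B := rfl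
  rw [e6] at e4
  rw [e7] at e2
  rw [e8] at e3
  omega

/-- Additivity of the Euler characteristic in the first variable. -/
theorem chi_left_of_le {A' A : Submodule K V} (B : Submodule K V) (h : A' ≤ A)
    (h0 : FiniteDimensional K ↥(A ⊓ B)) (h1 : FiniteDimensional K (V ⧸ (A' ⊔ B))) :
    FiniteDimensional K (↥A ⧸ A'.submoduleOf A) ∧
    (hZero A B : ℤ) - hOne A B = hZero A' B - hOne A' B + relDim A' A := by
  rw [hZero_comm A B, hOne_comm A B, hZero_comm A' B, hOne_comm A' B]
  exact chi_right_of_le B h (by rwa [inf_comm]) (by rwa [sup_comm])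

end Fermat.Agent.RED
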