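import Mathlib

/-!
# RED / RH : the abstract projective line and its residue functional

`IsP1 S₀ S₁ x` axiomatises the two standard charts `S₀ = K[x]`, `S₁ = K[1/x]_(1/x)` of the
rational function field `E = K(x)`.  We construct the functional `res` (coefficient of `1/x`) and
prove the three properties used for Serre duality.
-/

set_option autoImplicit false

namespace Fermat.Agent.RED

open Module

variable {K E : Type*} [Field K] [Field E] [Algebra K E]

/-- The two charts of the projective line. -/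
structure IsP1 (S₀ S₁ : Subalgebra K E) (x : E) : Prop where
  ne_zero : x ≠ 0
  mem_zero : x ∈ S₀
  inv_mem : x⁻¹ ∈ S₁
  decomp : ∀ f : E, ∃ a ∈ S₀, ∃ b ∈ S₁, f = a + x⁻¹ * b
  disj : ∀ a ∈ S₀, x * a ∈ S₁ → a = 0
  const : ∀ b ∈ S₁, ∃ c : K, x * (b - algebraMap K E c) ∈ S₁
  arch : ∀ f : E, f ≠ 0 → ∃ m : ℕ, x ^ m * f ∉ S₁
  bdd : ∀ f : E, ∃ m : ℕ, x⁻¹ ^ m * f ∈ S₁

namespace IsP1

variable {S₀ S₁ : Subalgebra K E} {x : E} (h : IsP1 S₀ S₁ x)

include h

theorem not_mem : x ∉ S₁ := by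
  intro hx
  have := h.disj 1 S₀.one_mem (by simpa using hx)
  exact one_ne_zero this

theorem mul_inv : x * x⁻¹ = 1 := mul_inv_cancel₀ h.ne_zero

theorem pow_mul_inv_pow (m : ℕ) : x ^ m * x⁻¹ ^ m = 1 := by
  rw [← mul_pow, h.mul_inv, one_pow]

theorem inv_pow_mem (m : ℕ) : x⁻¹ ^ m ∈ S₁ := S₁.pow_mem h.inv_mem m

theorem pow_mem (m : ℕ) : x ^ m ∈ S₀ := S₀.pow_mem h.mem_zero m

theorem exists_res : ∃ res : E →ₗ[K] K, (∀ a ∈ S₀, res a = 0) ∧
    (∀ b ∈ S₁, res (x⁻¹ ^ 2 * b) = 0) ∧ res x⁻¹ = 1 := by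
  classical
  set W : Submodule K E :=
    Subalgebra.toSubmodule S₀ ⊔ (Subalgebra.toSubmodule S₁).map (LinearMap.mulLeft K (x⁻¹ ^ 2))
    with hW
  have hx : x⁻¹ ∉ W := by
    intro hmem
    rw [hW, Submodule.mem_sup] at hmem
    obtain ⟨a, ha, _, ⟨b, hb, rfl⟩, hab⟩ := hmem
    rw [LinearMap.mulLeft_apply] at hab
    have ha' : a ∈ S₀ := ha
    have hb' : b ∈ S₁ := hb
    have hxy := h.mul_inv
    have h1 : x * a = 1 - x⁻¹ * b := by
      linear_combination x * hab + (1 - x⁻¹ * b) * hxy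
    have h2 : a = 0 := h.disj a ha' (by
      rw [h1]; exact S₁.sub_mem S₁.one_mem (S₁.mul_mem h.inv_mem hb'))
    rw [h2, mul_zero] at h1
    apply h.not_mem
    have : x = b := by
      have h3 : x⁻¹ * b = 1 := by linear_combination h1
      linear_combination (-x) * h3 + b * hxy
    rw [this]; exact hb'
  obtain ⟨f, hf, hfW⟩ := Submodule.exists_dual_map_eq_bot_of_notMem hx inferInstance
  have hfW' : ∀ w ∈ W, f w = 0 := by
    intro w hw
    have : f w ∈ W.map f := Submodule.mem_map_of_mem hw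
    rw [hfW, Submodule.mem_bot] at this
    exact this
  refine ⟨(f x⁻¹)⁻¹ • f, ?_, ?_, ?_⟩
  · intro a ha
    rw [LinearMap.smul_apply, hfW' a (Submodule.mem_sup_left ha), smul_zero]
  · intro b hb
    have := hfW' _ (Submodule.mem_sup_right ⟨b, hb, rfl⟩)
    rw [LinearMap.mulLeft_apply] at this
    rw [LinearMap.smul_apply, this, smul_zero]
  · rw [LinearMap.smul_apply, smul_eq_mul, inv_mul_cancel₀ hf]

/-- The residue functional (coefficient of `1/x`). -/
noncomputable def res : E →ₗ[K] K := h.exists_res.choose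

theorem res_zero {a : E} (ha : a ∈ S₀) : h.res a = 0 := h.exists_res.choose_spec.1 a ha

theorem res_infty {b : E} (hb : b ∈ S₁) : h.res (x⁻¹ ^ 2 * b) = 0 :=
  h.exists_res.choose_spec.2.1 b hb

theorem res_inv : h.res x⁻¹ = 1 := h.exists_res.choose_spec.2.2

/-- `res (u / x)` is the value of `u` at infinity. -/
theorem res_inv_mul {u : E} {c : K} (hc : x * (u - algebraMap K E c) ∈ S₁) :
    h.res (x⁻¹ * u) = c := by
  have : x⁻¹ * u = c • x⁻¹ + x⁻¹ ^ 2 * (x * (u - algebraMap K E c)) := by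
    rw [Algebra.smul_def]
    field_simp [h.ne_zero]
    ring
  rw [this, map_add, map_smul, h.res_inv, h.res_infty hc, smul_eq_mul, mul_one, add_zero]

/-- The orthogonal of `S₀` is `S₀`. -/
theorem mem_zero_of_res {b : E} (hb : ∀ a ∈ S₀, h.res (a * b) = 0) : b ∈ S₀ := by
  classical
  obtain ⟨p, hp, c, hc, rfl⟩ := h.decomp b
  by_cases hc0 : c = 0
  · simpa [hc0] using hp
  exfalso
  have hex := h.arch c hc0
  set m := Nat.find hex with hm
  have hm1 : x ^ m * c ∉ S₁ := Nat.find_spec hex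
  have hm0 : m ≠ 0 := by
    intro h0
    rw [h0] at hm1
    exact hm1 (by simpa using hc)
  obtain ⟨k, hk⟩ := Nat.exists_eq_succ_of_ne_zero hm0
  have hu : x ^ k * c ∈ S₁ := by
    by_contra hcon
    have := Nat.find_min' hex hcon
    omega
  obtain ⟨u₀, hu₀⟩ := h.const _ hu
  have h1 : h.res (x⁻¹ * (x ^ k * c)) = u₀ := h.res_inv_mul hu₀
  have h2 := hb (x ^ k) (h.pow_mem k)
  have h3 : x ^ k * (p + x⁻¹ * c) = x ^ k * p + x⁻¹ * (x ^ k * c) := by ring
  rw [h3, map_add, h.res_zero (S₀.mul_mem (h.pow_mem k) hp), h1, zero_add] at h2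
  rw [h2, map_zero, sub_zero] at hu₀
  apply hm1
  rw [hk, pow_succ]
  convert hu₀ using 1
  ring

/-- The orthogonal of `S₁` is `x⁻² S₁`. -/
theorem mem_infty_of_res {b : E} (hb : ∀ a ∈ S₁, h.res (a * b) = 0) : x ^ 2 * b ∈ S₁ := by
  classical
  have hex := h.bdd (x ^ 2 * b)
  set m := Nat.find hex with hm
  have hm1 : x⁻¹ ^ m * (x ^ 2 * b) ∈ S₁ := Nat.find_spec hex
  by_cases hm0 : m = 0
  · rw [hm0] at hm1
    simpa using hm1
  exfalso
  obtain ⟨k, hk⟩ := Nat.exists_eq_succ_of_ne_zero hm0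
  have hu : x⁻¹ ^ k * (x ^ 2 * b) ∉ S₁ := by
    intro hcon
    have := Nat.find_min' hex hcon
    omega
  obtain ⟨u₀, hu₀⟩ := h.const _ hm1
  have h1 : h.res (x⁻¹ * (x⁻¹ ^ m * (x ^ 2 * b))) = u₀ := h.res_inv_mul hu₀
  have h2 := hb (x⁻¹ ^ k) (h.inv_pow_mem k)
  have h3 : x⁻¹ * (x⁻¹ ^ m * (x ^ 2 * b)) = x⁻¹ ^ k * b := by
    rw [hk, pow_succ]
    field_simp [h.ne_zero]
  rw [h3, h2] at h1
  rw [← h1, map_zero, sub_zero] at hu₀
  apply hu
  convert hu₀ using 1
  rw [hk, Nat.succ_eq_add_one, pow_succ]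
  linear_combination (-(x⁻¹ ^ k * (x ^ 2 * b))) * h.mul_inv

theorem res_mul_zero {a b : E} (ha : a ∈ S₀) (hb : b ∈ S₀) : h.res (a * b) = 0 :=
  h.res_zero (S₀.mul_mem ha hb)

theorem res_mul_infty {a b : E} (ha : a ∈ S₁) (hb : x ^ 2 * b ∈ S₁) : h.res (a * b) = 0 := by
  have : a * b = x⁻¹ ^ 2 * (a * (x ^ 2 * b)) := by
    field_simp [h.ne_zero]
  rw [this]
  exact h.res_infty (S₁.mul_mem ha hb)

/-- Nondegeneracy of `res`. -/
theorem eq_zero_of_res {t : E} (ht : ∀ a : E, h.res (a * t) = 0) : t = 0 := by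
  by_contra hne
  have := ht (x⁻¹ * t⁻¹)
  rw [mul_assoc, inv_mul_cancel₀ hne, mul_one, h.res_inv] at this
  exact one_ne_zero this

/-- Representability of functionals, auxiliary form. -/
theorem exists_repr_aux (m : ℕ) : ∀ l : E →ₗ[K] K, (∀ a ∈ S₀, l a = 0) →
    (∀ b ∈ S₁, l (x⁻¹ ^ (m + 1) * b) = 0) → ∃ b ∈ S₀, ∀ f, l f = h.res (b * f) := by
  induction m with
  | zero =>
    intro l h0 h1
    refine ⟨0, S₀.zero_mem, fun f => ?_⟩
    obtain ⟨a, ha, b, hb, rfl⟩ := h.decomp f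
    have := h1 b hb
    rw [zero_add, pow_one] at this
    rw [map_add, h0 a ha, this, zero_mul, map_zero, add_zero]
  | succ m ih =>
    intro l h0 h1
    set c : K := l (x⁻¹ ^ (m + 1)) with hc
    set l' : E →ₗ[K] K := l - c • (h.res ∘ₗ LinearMap.mulLeft K (x ^ m)) with hl'
    have hl'app : ∀ f, l' f = l f - c * h.res (x ^ m * f) := by
      intro f
      simp [hl']
    obtain ⟨b, hb, hbl⟩ := ih l' (by
      intro a ha
      rw [hl'app, h0 a ha, h.res_zero (S₀.mul_mem (h.pow_mem m) ha), mul_zero, sub_zero]) (by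
      intro r hr
      obtain ⟨r₀, hr₀⟩ := h.const r hr
      have e1 : x⁻¹ ^ (m + 1) * r
          = r₀ • x⁻¹ ^ (m + 1) + x⁻¹ ^ (m + 1 + 1) * (x * (r - algebraMap K E r₀)) := by
        rw [Algebra.smul_def, pow_succ x⁻¹ (m + 1)]
        field_simp [h.ne_zero]
        ring
      have e2 : x ^ m * (x⁻¹ ^ (m + 1) * r) = x⁻¹ * r := by
        rw [pow_succ]
        linear_combination (x⁻¹ * r) * h.pow_mul_inv_pow m
      rw [hl'app, e2, h.res_inv_mul hr₀, e1, map_add, map_smul, h1 _ hr₀, ← hc, smul_eq_mul]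
      ring)
    refine ⟨b + c • x ^ m, S₀.add_mem hb (S₀.smul_mem (h.pow_mem m) c), fun f => ?_⟩
    have := hbl f
    rw [hl'app] at this
    rw [add_mul, map_add, ← this, smul_mul_assoc, map_smul, smul_eq_mul]
    ring

/-- Representability of functionals: a functional on `E` killing `S₀` and `x⁻ᵐ S₁` is of the form
`res (b * ·)`. -/
theorem exists_repr (m : ℕ) (l : E →ₗ[K] K) (h0 : ∀ a ∈ S₀, l a = 0)
    (h1 : ∀ b ∈ S₁, l (x⁻¹ ^ m * b) = 0) : ∃ b ∈ S₀, ∀ f, l f = h.res (b * f) := by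
  refine h.exists_repr_aux m l h0 fun b hb => ?_
  rw [pow_succ, mul_assoc]
  exact h1 _ (S₁.mul_mem h.inv_mem hb)

/-- Polynomials of bounded degree. -/
theorem mem_span_of_mem (m : ℕ) : ∀ f ∈ S₀, x⁻¹ ^ m * f ∈ S₁ →
    f ∈ Submodule.span K (Set.range fun i : Fin (m + 1) => x ^ (i : ℕ)) := by
  induction m with
  | zero =>
    intro f hf hf'
    rw [pow_zero, one_mul] at hf'
    obtain ⟨c, hc⟩ := h.const f hf'
    have := h.disj _ (S₀.sub_mem hf (S₀.algebraMap_mem c)) hc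
    rw [sub_eq_zero] at this
    rw [this, Algebra.algebraMap_eq_smul_one]
    exact Submodule.smul_mem _ _ (Submodule.subset_span ⟨0, by simp⟩)
  | succ m ih =>
    intro f hf hf'
    obtain ⟨c, hc⟩ := h.const _ hf'
    have h1 : f - c • x ^ (m + 1) ∈ S₀ := S₀.sub_mem hf (S₀.smul_mem (h.pow_mem _) c)
    have h2 : x⁻¹ ^ m * (f - c • x ^ (m + 1)) ∈ S₁ := by
      convert hc using 1
      rw [Algebra.smul_def, pow_succ x⁻¹ m, pow_succ x m]
      linear_combination (-(x⁻¹ ^ m * f)) * h.mul_inv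
        - (algebraMap K E c * x) * h.pow_mul_inv_pow m
    have h3 := ih _ h1 h2
    have h4 : Submodule.span K (Set.range fun i : Fin (m + 1) => x ^ (i : ℕ)) ≤
        Submodule.span K (Set.range fun i : Fin (m + 1 + 1) => x ^ (i : ℕ)) := by
      apply Submodule.span_mono
      rintro _ ⟨i, rfl⟩
      exact ⟨i.castSucc, rfl⟩
    have h5 : f = (f - c • x ^ (m + 1)) + c • x ^ (m + 1) := by ring
    rw [h5]
    exact Submodule.add_mem _ (h4 h3)
      (Submodule.smul_mem _ _ (Submodule.subset_span ⟨Fin.last (m + 1), by simp⟩))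

/-- The subspace of elements of `S₀` of degree at most `m`. -/
def bounded (_h : IsP1 S₀ S₁ x) (m : ℕ) : Submodule K E :=
  Subalgebra.toSubmodule S₀ ⊓ (Subalgebra.toSubmodule S₁).comap (LinearMap.mulLeft K (x⁻¹ ^ m))

theorem mem_bounded {m : ℕ} {f : E} : f ∈ h.bounded m ↔ f ∈ S₀ ∧ x⁻¹ ^ m * f ∈ S₁ := Iff.rfl

theorem finite_bounded (m : ℕ) : FiniteDimensional K ↥(h.bounded m) := by
  have hle : h.bounded m ≤ Submodule.span K (Set.range fun i : Fin (m + 1) => x ^ (i : ℕ)) :=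
    fun f hf => h.mem_span_of_mem m f hf.1 hf.2
  have : FiniteDimensional K
      ↥(Submodule.span K (Set.range fun i : Fin (m + 1) => x ^ (i : ℕ))) :=
    FiniteDimensional.span_of_finite K (Set.finite_range _)
  exact Submodule.finiteDimensional_of_le hle

end IsP1

end Fermat.Agent.RED
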