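import Fermat.Agent.RED.RH.Chi
import Fermat.Agent.RED.RH.P1

/-!
# RED / RH : Serre duality for lattice pairs over the projective line

`F / E` a finite separable extension, `E` with its two charts `S₀`, `S₁` (`IsP1`).
The pairing `⟨y, z⟩ = res (Tr (y z))` identifies the dual of `F ⧸ (N₀ ⊔ N₁)` with
`perp N₀ ⊓ perp N₁` as soon as `N₀`, `N₁` contain lattices.
-/

set_option autoImplicit false
set_option linter.unusedSectionVars false

namespace Fermat.Agent.RED

open Module

variable {K E F : Type*} [Field K] [Field E] [Field F] [Algebra K E] [Algebra K F] [Algebra E F]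
  [IsScalarTower K E F]
variable {S₀ S₁ : Subalgebra K E} {x : E}

/-- `N` contains an `S₀`-lattice. -/
def IsBigZero (S₀ : Subalgebra K E) (N : Submodule K F) : Prop :=
  ∃ v : Basis (Fin (finrank E F)) E F, ∀ i, ∀ a ∈ S₀, a • v i ∈ N

/-- `N` absorbs every element of `F` after multiplication by a power of `x⁻¹`. -/
def IsBigInfty (S₁ : Subalgebra K E) (x : E) (N : Submodule K F) : Prop :=
  ∀ f : F, ∃ m : ℕ, ∀ a ∈ S₁, (x⁻¹ ^ m * a) • f ∈ N

theorem IsBigZero.mono {N N' : Submodule K F} (hN : IsBigZero S₀ N) (hle : N ≤ N') :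
    IsBigZero S₀ N' := by
  obtain ⟨v, hv⟩ := hN
  exact ⟨v, fun i a ha => hle (hv i a ha)⟩

theorem IsBigInfty.mono {N N' : Submodule K F} (hN : IsBigInfty S₁ x N) (hle : N ≤ N') :
    IsBigInfty S₁ x N' := by
  intro f
  obtain ⟨m, hm⟩ := hN f
  exact ⟨m, fun a ha => hle (hm a ha)⟩

namespace IsP1

variable (h : IsP1 S₀ S₁ x)

/-- The pairing `⟨y, z⟩ = res (Tr (y z))`. -/
noncomputable def pairing (F : Type*) [Field F] [Algebra K F] [Algebra E F]
    [IsScalarTower K E F] : F →ₗ[K] F →ₗ[K] K :=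
  (LinearMap.mul K F).compr₂ (h.res ∘ₗ (Algebra.trace E F).restrictScalars K)

theorem pairing_apply (y z : F) : h.pairing F y z = h.res (Algebra.trace E F (y * z)) := rfl

/-- The orthogonal of a subspace. -/
noncomputable def perp (N : Submodule K F) : Submodule K F :=
  N.dualAnnihilator.comap (h.pairing F)

theorem mem_perp {N : Submodule K F} {y : F} :
    y ∈ h.perp N ↔ ∀ z ∈ N, h.res (Algebra.trace E F (y * z)) = 0 := by
  rw [perp, Submodule.mem_comap, Submodule.mem_dualAnnihilator]
  rfl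

theorem perp_sup (N N' : Submodule K F) : h.perp (N ⊔ N') = h.perp N ⊓ h.perp N' := by
  rw [perp, Submodule.dualAnnihilator_sup_eq, Submodule.comap_inf]
  rfl

theorem perp_anti {N N' : Submodule K F} (hle : N ≤ N') : h.perp N' ≤ h.perp N := by
  intro y hy
  rw [mem_perp] at hy ⊢
  exact fun z hz => hy z (hle hz)

include h in
theorem exists_uniform {N : Submodule K F} (hN : IsBigInfty S₁ x N) {ι : Type*} [Finite ι]
    (v : ι → F) : ∃ m : ℕ, ∀ i, ∀ a ∈ S₁, (x⁻¹ ^ m * a) • v i ∈ N := by
  classical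
  cases nonempty_fintype ι
  choose m hm using fun i => hN (v i)
  refine ⟨Finset.univ.sup m, fun i a ha => ?_⟩
  have hle : m i ≤ Finset.univ.sup m := Finset.le_sup (Finset.mem_univ i)
  obtain ⟨k, hk⟩ := Nat.exists_eq_add_of_le hle
  rw [hk, pow_add, mul_assoc]
  exact hm i _ (S₁.mul_mem (h.inv_pow_mem k) ha)

variable [FiniteDimensional E F] [Algebra.IsSeparable E F]

theorem pairing_injective : Function.Injective (h.pairing F) := by
  rw [injective_iff_map_eq_zero]
  intro y hy
  have h1 : ∀ z : F, Algebra.trace E F (y * z) = 0 := by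
    intro z
    apply h.eq_zero_of_res
    intro a
    have := LinearMap.congr_fun hy (a • z)
    rw [pairing_apply, mul_smul_comm, map_smul, smul_eq_mul] at this
    exact this
  exact (traceForm_nondegenerate E F).1 y h1

/-- Coordinates with respect to a basis are traces against the dual basis. -/
theorem trace_dualBasis_mul {ι : Type*} [Finite ι] [DecidableEq ι] (v : Basis ι E F) (i : ι)
    (z : F) :
    Algebra.trace E F ((Algebra.traceForm E F).dualBasis (traceForm_nondegenerate E F) v i * z)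
      = v.repr z i := by
  cases nonempty_fintype ι
  conv_lhs => rw [← v.sum_repr z]
  rw [Finset.mul_sum, map_sum]
  have : ∀ j, Algebra.trace E F
      ((Algebra.traceForm E F).dualBasis (traceForm_nondegenerate E F) v i * (v.repr z j • v j))
      = if j = i then v.repr z j else 0 := by
    intro j
    rw [mul_smul_comm, map_smul, ← Algebra.traceForm_apply,
      LinearMap.BilinForm.apply_dualBasis_left]
    split_ifs <;> simp
  rw [Finset.sum_congr rfl fun j _ => this j]
  simp

/-- Every functional killing a lattice pair is represented by the pairing. -/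
theorem exists_repr_of_big {N₀ N₁ : Submodule K F} (hN0 : IsBigZero S₀ N₀)
    (hN1 : IsBigInfty S₁ x N₁) (l : F →ₗ[K] K) (hl0 : ∀ z ∈ N₀, l z = 0)
    (hl1 : ∀ z ∈ N₁, l z = 0) : ∃ y : F, h.pairing F y = l := by
  classical
  obtain ⟨v, hv⟩ := hN0
  obtain ⟨m, hm⟩ := h.exists_uniform hN1 v
  set li : Fin (finrank E F) → (E →ₗ[K] K) := fun i =>
    l ∘ₗ ((LinearMap.toSpanSingleton E F (v i)).restrictScalars K) with hli
  have hliapp : ∀ i a, li i a = l (a • v i) := fun i a => rfl
  choose b _ hbl using fun i => h.exists_repr m (li i)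
    (fun a ha => by rw [hliapp]; exact hl0 _ (hv i a ha))
    (fun a ha => by rw [hliapp]; exact hl1 _ (hm i a ha))
  set d := (Algebra.traceForm E F).dualBasis (traceForm_nondegenerate E F) v with hd
  refine ⟨∑ i, b i • d i, ?_⟩
  ext z
  rw [pairing_apply, Finset.sum_mul, map_sum, map_sum]
  conv_rhs => rw [← v.sum_repr z]
  rw [map_sum]
  refine Finset.sum_congr rfl fun i _ => ?_
  rw [smul_mul_assoc, map_smul, hd, trace_dualBasis_mul, smul_eq_mul, ← hbl, hliapp]

/-- Finite-dimensionality of `h⁰` of the dual pair. -/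
theorem finite_perp_inf {N₀ N₁ : Submodule K F} (hN0 : IsBigZero S₀ N₀)
    (hN1 : IsBigInfty S₁ x N₁) : FiniteDimensional K ↥(h.perp N₀ ⊓ h.perp N₁) := by
  classical
  obtain ⟨v, hv⟩ := hN0
  obtain ⟨m, hm⟩ := h.exists_uniform hN1 v
  have hmem : ∀ (y : ↥(h.perp N₀ ⊓ h.perp N₁)) i,
      Algebra.trace E F ((y : F) * v i) ∈ h.bounded m := by
    intro y i
    have hy0 := h.mem_perp.1 y.2.1
    have hy1 := h.mem_perp.1 y.2.2
    rw [h.mem_bounded]
    constructor
    · apply h.mem_zero_of_res
      intro a ha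
      have := hy0 _ (hv i a ha)
      rwa [mul_smul_comm, map_smul, smul_eq_mul] at this
    · have h2 : x ^ 2 * (x⁻¹ ^ m * Algebra.trace E F ((y : F) * v i)) ∈ S₁ := by
        apply h.mem_infty_of_res
        intro a ha
        have := hy1 _ (hm i a ha)
        rw [mul_smul_comm, map_smul, smul_eq_mul] at this
        rw [← this]
        congr 1
        ring
      have h3 := S₁.mul_mem (h.inv_pow_mem 2) h2
      convert h3 using 1
      have := h.pow_mul_inv_pow 2
      linear_combination (-(x⁻¹ ^ m * Algebra.trace E F ((y : F) * v i))) * this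
  have := h.finite_bounded m
  set Φ : ↥(h.perp N₀ ⊓ h.perp N₁) →ₗ[K] (Fin (finrank E F) → ↥(h.bounded m)) :=
    LinearMap.pi fun i => LinearMap.codRestrict (h.bounded m)
      ((((Algebra.trace E F).restrictScalars K) ∘ₗ LinearMap.mulRight K (v i)) ∘ₗ
        (h.perp N₀ ⊓ h.perp N₁).subtype) (fun y => hmem y i) with hΦ
  have hinj : Function.Injective Φ := by
    rw [injective_iff_map_eq_zero]
    intro y hy
    have h1 : ∀ i, Algebra.trace E F ((y : F) * v i) = 0 := by
      intro i
      have := congrArg Subtype.val (congrFun hy i)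
      exact this
    have h2 : (y : F) = 0 := by
      apply (traceForm_nondegenerate E F).1
      intro z
      rw [← v.sum_repr z, map_sum]
      refine Finset.sum_eq_zero fun i _ => ?_
      rw [map_smul, Algebra.traceForm_apply, h1 i, smul_zero]
    exact Subtype.ext h2
  exact Module.Finite.of_injective Φ hinj

theorem map_pairing_perp {N₀ N₁ : Submodule K F} (hN0 : IsBigZero S₀ N₀)
    (hN1 : IsBigInfty S₁ x N₁) :
    (h.perp (N₀ ⊔ N₁)).map (h.pairing F) = (N₀ ⊔ N₁).dualAnnihilator := by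
  rw [perp, Submodule.map_comap_eq, inf_eq_right]
  intro l hl
  rw [Submodule.mem_dualAnnihilator] at hl
  obtain ⟨y, hy⟩ := h.exists_repr_of_big hN0 hN1 l
    (fun z hz => hl z (Submodule.mem_sup_left hz)) (fun z hz => hl z (Submodule.mem_sup_right hz))
  exact ⟨y, hy⟩

/-- The linear equivalence underlying Serre duality. -/
noncomputable def dualityEquiv {N₀ N₁ : Submodule K F} (hN0 : IsBigZero S₀ N₀)
    (hN1 : IsBigInfty S₁ x N₁) :
    ↥(h.perp N₀ ⊓ h.perp N₁) ≃ₗ[K] Dual K (F ⧸ (N₀ ⊔ N₁)) :=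
  (LinearEquiv.ofEq _ _ (h.perp_sup N₀ N₁).symm) ≪≫ₗ
    (Submodule.equivMapOfInjective (h.pairing F) h.pairing_injective _) ≪≫ₗ
    (LinearEquiv.ofEq _ _ (h.map_pairing_perp hN0 hN1)) ≪≫ₗ
    (Submodule.dualQuotEquivDualAnnihilator (N₀ ⊔ N₁)).symm

/-- **Serre duality**, numerical form. -/
theorem hOne_eq_hZero_perp {N₀ N₁ : Submodule K F} (hN0 : IsBigZero S₀ N₀)
    (hN1 : IsBigInfty S₁ x N₁) : hOne N₀ N₁ = hZero (h.perp N₀) (h.perp N₁) := by
  rw [hOne, hZero, (h.dualityEquiv hN0 hN1).finrank_eq, Subspace.dual_finrank_eq]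

include h in
theorem finite_quotient_sup {N₀ N₁ : Submodule K F} (hN0 : IsBigZero S₀ N₀)
    (hN1 : IsBigInfty S₁ x N₁) : FiniteDimensional K (F ⧸ (N₀ ⊔ N₁)) := by
  have := h.finite_perp_inf hN0 hN1
  have h2 : Module.Finite K (Dual K (F ⧸ (N₀ ⊔ N₁))) :=
    Module.Finite.equiv (h.dualityEquiv hN0 hN1)
  exact (Module.finite_dual_iff K).1 h2

end IsP1

end Fermat.Agent.RED
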