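import Fermat.Agent.RED.RH.Model
import Fermat.Agent.RED.FF.Param

/-!
# RED / RH : a function field with a separating parameter as a `K(X)`-algebra
-/

set_option autoImplicit false
set_option linter.unusedSectionVars false
set_option linter.style.haveILetI false

namespace Fermat.Agent.RED

open Polynomial IntermediateField Module

section Given

variable {K F : Type*} [Field K] [Field F] [Algebra K F] [Algebra (RatFunc K) F]
  [IsScalarTower K (RatFunc K) F]

/-- The `K(X)`-algebra structure of `F` factors through `K⟮x⟯`. -/
theorem algebraMap_comp_algEquiv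
    (hx : Transcendental K (algebraMap (RatFunc K) F RatFunc.X)) :
    (algebraMap K⟮algebraMap (RatFunc K) F RatFunc.X⟯ F).comp
      ((RatFunc.algEquivOfTranscendental _ hx).toRingEquiv :
        RatFunc K →+* K⟮algebraMap (RatFunc K) F RatFunc.X⟯) =
      ((RingEquiv.refl F : F ≃+* F) : F →+* F).comp (algebraMap (RatFunc K) F) := by
  apply IsLocalization.ringHom_ext (nonZeroDivisors K[X])
  apply Polynomial.ringHom_ext
  · intro a
    simp only [RingHom.comp_apply, RatFunc.algebraMap_C]
    show algebraMap K⟮algebraMap (RatFunc K) F RatFunc.X⟯ F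
      (RatFunc.algEquivOfTranscendental _ hx (RatFunc.C a)) = algebraMap (RatFunc K) F (RatFunc.C a)
    rw [← RatFunc.algebraMap_eq_C, AlgEquiv.commutes, ← IsScalarTower.algebraMap_apply,
      ← IsScalarTower.algebraMap_apply]
  · simp only [RingHom.comp_apply, RatFunc.algebraMap_X]
    simp

theorem finrank_ratFunc_eq (hx : Transcendental K (algebraMap (RatFunc K) F RatFunc.X)) :
    finrank (RatFunc K) F = finrank K⟮algebraMap (RatFunc K) F RatFunc.X⟯ F :=
  Algebra.finrank_eq_of_equiv_equiv (RatFunc.algEquivOfTranscendental _ hx).toRingEquiv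
    (RingEquiv.refl F) (by
      ext t
      exact RingHom.congr_fun (algebraMap_comp_algEquiv hx) t)

theorem finite_ratFunc_of_isSepParam
    (hx : IsSepParam K (algebraMap (RatFunc K) F RatFunc.X)) :
    FiniteDimensional (RatFunc K) F := by
  have := hx.finite
  have h := algebraMap_comp_algEquiv hx.transcendental
  refine Module.Finite.of_equiv_equiv
    (RatFunc.algEquivOfTranscendental _ hx.transcendental).toRingEquiv.symm (RingEquiv.refl F) ?_
  ext t
  have := RingHom.congr_fun h ((RatFunc.algEquivOfTranscendental _ hx.transcendental).symm t)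
  simpa using this.symm

theorem isSeparable_ratFunc_of_isSepParam
    (hx : IsSepParam K (algebraMap (RatFunc K) F RatFunc.X)) :
    Algebra.IsSeparable (RatFunc K) F := by
  have := hx.separable
  exact (Algebra.IsSeparable.iff_of_equiv_equiv _ _
    (algebraMap_comp_algEquiv hx.transcendental)).2 this

end Given

section Construct

variable {K F : Type*} [Field K] [Field F] [Algebra K F] {x : F}

/-- The `K(X)`-algebra structure on `F` with `X ↦ x`. -/
noncomputable abbrev ratFuncAlgebra (hx : Transcendental K x) : Algebra (RatFunc K) F :=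
  ((algebraMap K⟮x⟯ F).comp
    ((RatFunc.algEquivOfTranscendental x hx).toRingEquiv : RatFunc K →+* K⟮x⟯)).toAlgebra

theorem ratFuncAlgebra_X (hx : Transcendental K x) :
    letI := ratFuncAlgebra hx
    algebraMap (RatFunc K) F RatFunc.X = x := by
  letI := ratFuncAlgebra hx
  show algebraMap K⟮x⟯ F (RatFunc.algEquivOfTranscendental x hx RatFunc.X) = x
  simp

theorem isScalarTower_ratFuncAlgebra (hx : Transcendental K x) :
    letI := ratFuncAlgebra hx
    IsScalarTower K (RatFunc K) F := by
  letI := ratFuncAlgebra hx
  refine IsScalarTower.of_algebraMap_eq fun a => ?_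
  show algebraMap K F a =
    algebraMap K⟮x⟯ F (RatFunc.algEquivOfTranscendental x hx (algebraMap K (RatFunc K) a))
  rw [AlgEquiv.commutes, ← IsScalarTower.algebraMap_apply]

/-- The `K[X]`-algebra structure on `F` with `X ↦ x`. -/
noncomputable abbrev polyAlgebra (K : Type*) {F : Type*} [Field K] [Field F] [Algebra K F] (x : F) :
    Algebra K[X] F :=
  (Polynomial.aeval x : K[X] →ₐ[K] F).toRingHom.toAlgebra

theorem isScalarTower_polyAlgebra (hx : Transcendental K x) :
    letI := ratFuncAlgebra hx
    letI := polyAlgebra K x
    IsScalarTower K[X] (RatFunc K) F := by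
  letI := ratFuncAlgebra hx
  letI := polyAlgebra K x
  refine IsScalarTower.of_algebraMap_eq fun p => ?_
  show Polynomial.aeval x p =
    algebraMap K⟮x⟯ F (RatFunc.algEquivOfTranscendental x hx (algebraMap K[X] (RatFunc K) p))
  rw [RatFunc.algEquivOfTranscendental_algebraMap, ← Polynomial.aeval_algebraMap_apply]
  simp

end Construct

end Fermat.Agent.RED
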