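import Fermat.Agent.RED.RH.Abstract
import Fermat.Agent.RED.RH.ModelF
import Fermat.Agent.RED.FF.Riemann

/-!
# RED / RH : the genus formula `2 g - 2 = -2 n + deg Diff₀ + deg Diff_∞`  ([RH-C1])
-/

set_option autoImplicit false
set_option linter.unusedSectionVars false

namespace Fermat.Agent.RED

open Polynomial AlgebraicCurve Module IntermediateField IsDedekindDomain nonZeroDivisors
open Fermat.Agent.S24

section Chart

variable {K F : Type*} [Field K] [Field F] [Algebra K F]
variable (A : Type*) {B : Type*} [CommRing A] [CommRing B] [IsDedekindDomain B] [Algebra B F]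
  [IsFractionRing B F] [Algebra A B] [Algebra A F] [IsScalarTower A B F] [IsIntegralClosure B A F]
  [Algebra K B] [IsScalarTower K B F]

/-- An integral element lies in every valuation ring containing the base. -/
theorem mem_valuationSubring_of_isIntegral (O : ValuationSubring F)
    (hA : ∀ a : A, algebraMap A F a ∈ O) {f : F} (hf : IsIntegral A f) : f ∈ O := by
  obtain ⟨p, hp, hp0⟩ := hf
  let φ : A →+* O := (algebraMap A F).codRestrict O.toSubring hA
  have h1 : IsIntegral O f := by
    refine ⟨p.map φ, hp.map φ, ?_⟩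
    rw [Polynomial.eval₂_map]
    exact hp0
  obtain ⟨x, hx⟩ := IsIntegrallyClosed.isIntegral_iff.1 h1
  rw [← hx]
  exact x.2

/-- The integral closure `B` of `A` is the intersection of the valuation rings of the places
containing `A`. -/
theorem mem_range_iff_forall_place {f : F} : f ∈ (algebraMap B F).range ↔
    ∀ v : Place K F, (∀ a : A, algebraMap A F a ∈ v.toValuationSubring) →
      f ∈ v.toValuationSubring := by
  constructor
  · rintro ⟨b, rfl⟩ v hv
    exact mem_valuationSubring_of_isIntegral A _ hv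
      ((IsIntegralClosure.isIntegral_iff (A := B)).2 ⟨b, rfl⟩)
  · intro h
    apply HeightOneSpectrum.mem_integers_of_valuation_le_one
    intro w
    have := h (Place.ofHeightOneSpectrum (K := K) w) (fun a => by
      rw [IsScalarTower.algebraMap_apply A B F]
      exact algebraMap_mem_ofHeightOneSpectrum w _)
    rwa [Place.ofHeightOneSpectrum_toValuationSubring, Valuation.mem_valuationSubring_iff] at this

end Chart

variable {K F : Type*} [Field K] [Field F] [Algebra K F]
  [Algebra (RatFunc K) F] [Algebra K[X] F] [IsScalarTower K (RatFunc K) F]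
  [IsScalarTower K[X] (RatFunc K) F]

theorem algebraMap_poly_X : algebraMap K[X] F Polynomial.X = algebraMap (RatFunc K) F RatFunc.X := by
  rw [IsScalarTower.algebraMap_apply K[X] (RatFunc K) F, RatFunc.algebraMap_X]

theorem algebraMap_poly_C (a : K) : algebraMap K[X] F (Polynomial.C a) = algebraMap K F a := by
  rw [IsScalarTower.algebraMap_apply K[X] (RatFunc K) F, RatFunc.algebraMap_C,
    ← RatFunc.algebraMap_eq_C, ← IsScalarTower.algebraMap_apply]

/-- The finite chart. -/
theorem forall_poly_mem_iff (v : Place K F) :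
    (∀ p : K[X], algebraMap K[X] F p ∈ v.toValuationSubring) ↔
      algebraMap (RatFunc K) F RatFunc.X ∈ v.toValuationSubring := by
  constructor
  · intro h
    rw [← algebraMap_poly_X]
    exact h _
  · intro h p
    induction p using Polynomial.induction_on with
    | C a => rw [algebraMap_poly_C]; exact v.algebraMap_mem' a
    | add p q hp hq => rw [map_add]; exact add_mem hp hq
    | monomial n a ih =>
      rw [pow_succ, ← mul_assoc, map_mul, algebraMap_poly_X]
      exact mul_mem ih h

theorem mem_toValuationSubring_iff (v : Place K F) {f : F} :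
    f ∈ v.toValuationSubring ↔ v.adicValuation f ≤ 1 := by
  rw [Place.adicValuation_le_one_iff]
  rcases eq_or_ne f 0 with rfl | hf
  · simp [zero_mem]
  · rw [Place.mem_iff_ord_nonneg v hf, or_iff_right hf]

/-- The chart at infinity, easy half: `𝒪_∞` is contained in the valuation ring of every pole. -/
theorem rinf_mem_of_pole (v : Place K F)
    (hv : v.ord (algebraMap (RatFunc K) F RatFunc.X) < 0) (t : ↥(DRH.Rinf K)) :
    algebraMap (RatFunc K) F (t : RatFunc K) ∈ v.toValuationSubring := by
  classical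
  set w : Valuation (RatFunc K) (WithZero (Multiplicative ℤ)) :=
    v.adicValuation.comap (algebraMap (RatFunc K) F) with hw
  have : w.IsTrivialOn K := ⟨fun a ha => by
    rw [hw, Valuation.comap_apply, ← IsScalarTower.algebraMap_apply,
      Place.adicValuation_eq_exp_neg_ord v (by simpa using ha), Place.ord_algebraMap]
    simp⟩
  have hlt : 1 < w RatFunc.X := by
    rw [← not_le, hw, Valuation.comap_apply, Place.not_adicValuation_le_one_iff]
    exact hv
  rw [mem_toValuationSubring_iff]
  rcases eq_or_ne (t : RatFunc K) 0 with h0 | h0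
  · rw [h0, map_zero, map_zero]; exact zero_le_one
  have h1 := RatFunc.valuation_eq_valuation_X_zpow_intDegree_of_one_lt_valuation_X hlt h0
  have h2 : v.adicValuation (algebraMap (RatFunc K) F (t : RatFunc K)) = w t := rfl
  rw [h2, h1]
  have h3 : (t : RatFunc K).intDegree ≤ 0 := t.2
  exact zpow_le_one_of_nonpos₀ hlt.le h3

/-- The chart at infinity, converse half. -/
theorem pole_of_rinf_mem [IsAlgClosed K]
    (hx : IsSepParam K (algebraMap (RatFunc K) F RatFunc.X)) (v : Place K F)
    (h : ∀ t : ↥(DRH.Rinf K), algebraMap (RatFunc K) F (t : RatFunc K) ∈ v.toValuationSubring) :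
    v.ord (algebraMap (RatFunc K) F RatFunc.X) < 0 := by
  by_contra hge
  rw [not_lt] at hge
  have hmem := (Place.mem_iff_ord_nonneg v hx.ne_zero).2 hge
  obtain ⟨c, hc⟩ := hx.exists_value v hmem
  rcases hc with hc | hc
  · apply hx.transcendental
    rw [hc]
    exact isAlgebraic_algebraMap c
  · have h1 : ((RatFunc.X : RatFunc K) - RatFunc.C c)⁻¹ ∈ DRH.Rinf K := by
      have h2 : (RatFunc.X : RatFunc K) - RatFunc.C c
          = algebraMap K[X] (RatFunc K) (Polynomial.X - Polynomial.C c) := by
        rw [map_sub, RatFunc.algebraMap_X, RatFunc.algebraMap_C]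
      rw [DRH.mem_Rinf, RatFunc.intDegree_inv, h2, RatFunc.intDegree_polynomial,
        Polynomial.natDegree_X_sub_C]
      norm_num
    have h3 := Place.ord_nonneg_of_mem v (h ⟨_, h1⟩)
    rw [map_inv₀, map_sub, ← RatFunc.algebraMap_eq_C, ← IsScalarTower.algebraMap_apply,
      Place.ord_inv] at h3
    omega

variable [FiniteDimensional (RatFunc K) F] [Algebra.IsSeparable (RatFunc K) F]

section Main

variable [IsAlgClosed K]
    (B₀ : Type*) [CommRing B₀] [IsDedekindDomain B₀] [Algebra B₀ F] [IsFractionRing B₀ F]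
    [Algebra K[X] B₀] [IsScalarTower K[X] B₀ F] [IsIntegralClosure B₀ K[X] F] [Algebra K B₀]
    [IsScalarTower K B₀ F]
    (B₁ : Type*) [CommRing B₁] [IsDedekindDomain B₁] [Algebra B₁ F] [IsFractionRing B₁ F]
    [Algebra ↥(DRH.Rinf K) B₁] [IsScalarTower ↥(DRH.Rinf K) B₁ F]
    [IsIntegralClosure B₁ ↥(DRH.Rinf K) F] [Algebra K B₁]
    [IsScalarTower K B₁ F]

/-- `B₀ ∩ xᵐ B₁ = L(m (x)_∞)`. -/
theorem inf_fsub_eq_L (hx : IsSepParam K (algebraMap (RatFunc K) F RatFunc.X)) (m : ℕ) :
    fsub K (1 : FractionalIdeal B₀⁰ F) ⊓ fsub K (tw B₁ (F := F) (RatFunc.X : RatFunc K) (m : ℤ)) =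
      riemannRochSpace (m • polarDiv K (algebraMap (RatFunc K) F RatFunc.X)) := by
  set x : F := algebraMap (RatFunc K) F RatFunc.X with hxdef
  have hx0 : x ≠ 0 := hx.ne_zero
  ext f
  rcases eq_or_ne f 0 with rfl | hf
  · simp only [zero_mem]
  rw [Submodule.mem_inf, mem_fsub, mem_fsub, FractionalIdeal.mem_one_iff, tw,
    FractionalIdeal.mem_spanSingleton, mem_L_iff_of_ne_zero hf, zpow_natCast]
  have hD : ∀ v : Place K F, (m • polarDiv K x) v = m * max (- v.ord x) 0 := by
    intro v
    rw [Finsupp.smul_apply, hx.polarDiv_apply, nsmul_eq_mul]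
  constructor
  · rintro ⟨h0, b, hb⟩ v
    rw [hD]
    by_cases hv : v.ord x < 0
    · have hb' : algebraMap B₁ F b ∈ v.toValuationSubring :=
        (mem_range_iff_forall_place (K := K) ↥(DRH.Rinf K) (B := B₁)).1 ⟨b, rfl⟩ v
          (fun a => rinf_mem_of_pole v hv a)
      have hb0 : algebraMap B₁ F b ≠ 0 := by
        intro h
        rw [Algebra.smul_def, h, zero_mul] at hb
        exact hf hb.symm
      rw [← hb, Algebra.smul_def, v.ord_mul hb0 (pow_ne_zero _ hx0), Place.ord_pow,
        max_eq_left (by omega)]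
      have := Place.ord_nonneg_of_mem v hb'
      linarith
    · have hxv : x ∈ v.toValuationSubring := (Place.mem_iff_ord_nonneg v hx0).2 (not_lt.1 hv)
      have hfv : f ∈ v.toValuationSubring :=
        (mem_range_iff_forall_place (K := K) K[X] (B := B₀)).1 h0 v
          ((forall_poly_mem_iff v).2 hxv)
      rw [max_eq_right (by omega), mul_zero, add_zero]
      exact Place.ord_nonneg_of_mem v hfv
  · intro h
    constructor
    · apply (mem_range_iff_forall_place (K := K) K[X] (B := B₀)).2
      intro v hv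
      have hxv := (Place.mem_iff_ord_nonneg v hx0).1 ((forall_poly_mem_iff v).1 hv)
      have := h v
      rw [hD, max_eq_right (by omega), mul_zero, add_zero] at this
      exact (Place.mem_iff_ord_nonneg v hf).2 this
    · have hg : f * (x ^ m)⁻¹ ∈ (algebraMap B₁ F).range := by
        apply (mem_range_iff_forall_place (K := K) ↥(DRH.Rinf K) (B := B₁)).2
        intro v hv
        have hxv : v.ord x < 0 := pole_of_rinf_mem hx v hv
        have := h v
        rw [hD, max_eq_left (by omega)] at this
        rw [Place.mem_iff_ord_nonneg v (mul_ne_zero hf (inv_ne_zero (pow_ne_zero _ hx0))),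
          v.ord_mul hf (inv_ne_zero (pow_ne_zero _ hx0)), Place.ord_inv, Place.ord_pow]
        linarith
      obtain ⟨b, hb⟩ := hg
      refine ⟨b, ?_⟩
      rw [Algebra.smul_def, hb, mul_assoc, inv_mul_cancel₀ (pow_ne_zero _ hx0), mul_one]

/-- The genus formula with `n = [F : K(x)]` measured by `K⟮x⟯`. -/
theorem genus_formula' [Module.IsTorsionFree K[X] B₀] [Module.IsTorsionFree ↥(DRH.Rinf K) B₁]
    (hx : IsSepParam K (algebraMap (RatFunc K) F RatFunc.X)) :
    2 * gR K F - 2 = -2 * (finrank K⟮algebraMap (RatFunc K) F RatFunc.X⟯ F : ℤ)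
      + finrank K (B₀ ⧸ differentIdeal K[X] B₀)
      + finrank K (B₁ ⧸ differentIdeal ↥(DRH.Rinf K) B₁) := by
  set x : F := algebraMap (RatFunc K) F RatFunc.X with hxdef
  set π : B₁ := algebraMap ↥(DRH.Rinf K) B₁ ⟨RatFunc.X⁻¹, (isP1_ratFunc K).inv_mem⟩ with hπdef
  have hπ : algebraMap B₁ F π = (algebraMap (RatFunc K) F RatFunc.X)⁻¹ := by
    rw [hπdef, ← IsScalarTower.algebraMap_apply, ← map_inv₀]
    rfl
  obtain ⟨m₀, hm₀⟩ := exists_two_mul_hZero (K := K) (F := F) (B₀ := B₀) (B₁ := B₁) K[X]
    ↥(DRH.Rinf K) (isP1_ratFunc K) (fun _ => mem_polyS) (fun _ => mem_Rinf_iff_range) hπ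
  obtain ⟨c, hc⟩ := hx.exists_riemann
  set d : ℤ := (finrank K⟮x⟯ F : ℤ) with hd
  have hdpos : 0 < d := by
    have := hx.finite
    rw [hd]
    exact_mod_cast finrank_pos
  set n₁ : ℤ := (finrank K (B₁ ⧸ Ideal.span {π}) : ℤ) with hn₁
  have key : ∀ m : ℕ, m₀ ≤ m → c ≤ m → 2 * ((m : ℤ) * d + 1 - gR K F) =
      2 * m * n₁ + 2 * n₁ - finrank K (B₀ ⧸ differentIdeal K[X] B₀)
        - finrank K (B₁ ⧸ differentIdeal ↥(DRH.Rinf K) B₁) := by
    intro m hm hmc
    have h1 := hm₀ m hm
    rw [hZero, inf_fsub_eq_L B₀ B₁ hx m] at h1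
    have hdeg : Divisor.degree (m • polarDiv K x) = m * d := by
      rw [map_nsmul, hx.degree_polarDiv, nsmul_eq_mul]
    have h2 := hc (m • polarDiv K x) (by rw [hdeg]; nlinarith)
    rw [hdeg] at h2
    rw [← h2]
    exact h1
  set M : ℕ := max m₀ c.toNat with hM
  have hM1 : m₀ ≤ M := le_max_left _ _
  have hM2 : c ≤ M := by
    have : c.toNat ≤ M := le_max_right _ _
    omega
  have k1 := key M hM1 hM2
  have k2 := key (M + 1) (by omega) (by push_cast; omega)
  push_cast at k2
  have hdn : d = n₁ := by linarith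
  rw [← hdn] at k1
  linarith

/-- **[RH-C1]** the genus formula. -/
theorem genus_formula [Module.IsTorsionFree K[X] B₀] [Module.IsTorsionFree ↥(DRH.Rinf K) B₁]
    (hx : IsSepParam K (algebraMap (RatFunc K) F RatFunc.X)) :
    2 * gR K F - 2 = -2 * (finrank (RatFunc K) F : ℤ)
      + finrank K (B₀ ⧸ differentIdeal K[X] B₀)
      + finrank K (B₁ ⧸ differentIdeal ↥(DRH.Rinf K) B₁) := by
  rw [finrank_ratFunc_eq hx.transcendental]
  exact genus_formula' B₀ B₁ hx

end Main

end Fermat.Agent.RED
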