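import Fermat.Agent.RED.RH.Genus
import Fermat.Agent.RED.DRH.DiffPlace

/-!
# RED / RH : the primes of the chart at infinity are the poles of `x`
-/

set_option autoImplicit false
set_option linter.unusedSectionVars false
set_option linter.style.haveILetI false

namespace Fermat.Agent.RED

open Polynomial AlgebraicCurve Module IntermediateField IsDedekindDomain nonZeroDivisors
open Fermat.Agent.S24

variable {K F : Type*} [Field K] [Field F] [Algebra K F]
  [Algebra (RatFunc K) F] [Algebra K[X] F] [IsScalarTower K (RatFunc K) F]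
  [IsScalarTower K[X] (RatFunc K) F]
  [IsAlgClosed K]
  (B₁ : Type*) [CommRing B₁] [IsDedekindDomain B₁] [Algebra B₁ F] [IsFractionRing B₁ F]
  [Algebra ↥(DRH.Rinf K) B₁] [IsScalarTower ↥(DRH.Rinf K) B₁ F]
  [IsIntegralClosure B₁ ↥(DRH.Rinf K) F] [Algebra K B₁]
  [IsScalarTower K B₁ F]

theorem ord_lt_zero_ofHeightOneSpectrum
    (hx : IsSepParam K (algebraMap (RatFunc K) F RatFunc.X)) (w : HeightOneSpectrum B₁) :
    (Place.ofHeightOneSpectrum (K := K) (F := F) w).ord
      (algebraMap (RatFunc K) F RatFunc.X) < 0 := by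
  refine pole_of_rinf_mem hx _ (fun t => ?_)
  have h1 : algebraMap (RatFunc K) F (t : RatFunc K) =
      algebraMap B₁ F (algebraMap ↥(DRH.Rinf K) B₁ t) := by
    rw [← IsScalarTower.algebraMap_apply ↥(DRH.Rinf K) B₁ F]
    rfl
  rw [h1]
  exact algebraMap_mem_ofHeightOneSpectrum w _

theorem exists_eq_ofHeightOneSpectrum_of_pole (v : Place K F)
    (hv : v.ord (algebraMap (RatFunc K) F RatFunc.X) < 0) :
    ∃ w : HeightOneSpectrum B₁, v = Place.ofHeightOneSpectrum w := by
  apply exists_eq_ofHeightOneSpectrum v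
  intro b
  refine mem_valuationSubring_of_isIntegral ↥(DRH.Rinf K) v.toValuationSubring
    (fun t => rinf_mem_of_pole v hv t) ?_
  exact IsIntegralClosure.isIntegral_iff (A := B₁) |>.2 ⟨b, rfl⟩

/-- primes of the chart at infinity = poles of `x`. -/
noncomputable def heightOneSpectrumEquivPoles
    (hx : IsSepParam K (algebraMap (RatFunc K) F RatFunc.X)) :
    HeightOneSpectrum B₁ ≃
      {v : Place K F // v.ord (algebraMap (RatFunc K) F RatFunc.X) < 0} :=
  Equiv.ofBijective
    (fun w => ⟨Place.ofHeightOneSpectrum w, ord_lt_zero_ofHeightOneSpectrum B₁ hx w⟩)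
    ⟨fun a b h => ofHeightOneSpectrum_injective (congrArg Subtype.val h), fun v => by
      obtain ⟨w, hw⟩ := exists_eq_ofHeightOneSpectrum_of_pole B₁ v.1 v.2
      exact ⟨w, Subtype.ext hw.symm⟩⟩

theorem card_heightOneSpectrum_eq_poles
    (hx : IsSepParam K (algebraMap (RatFunc K) F RatFunc.X)) :
    Nat.card (HeightOneSpectrum B₁) =
      Nat.card {v : Place K F // v.ord (algebraMap (RatFunc K) F RatFunc.X) < 0} :=
  Nat.card_congr (heightOneSpectrumEquivPoles B₁ hx)

theorem finite_heightOneSpectrum_infty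
    (hx : IsSepParam K (algebraMap (RatFunc K) F RatFunc.X)) :
    Finite (HeightOneSpectrum B₁) := by
  haveI : Finite {v : Place K F // v.ord (algebraMap (RatFunc K) F RatFunc.X) < 0} :=
    hx.finite_poles
  exact Finite.of_equiv _ (heightOneSpectrumEquivPoles B₁ hx).symm

end Fermat.Agent.RED
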