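import Fermat.Agent.RED.RH.Model
import Fermat.Agent.RED.DRH.Diff

/-!
# RED / RH : the residue field of `𝒪_∞ = DRH.Rinf K` is `K`
-/

set_option autoImplicit false
set_option linter.unusedSectionVars false

namespace Fermat.Agent.RED

open Polynomial

variable (K : Type*) [Field K]

/-- `1 / X` as an element of `𝒪_∞`. -/
noncomputable def piInf : ↥(DRH.Rinf K) := ⟨(RatFunc.X : RatFunc K)⁻¹, (isP1_ratFunc K).inv_mem⟩

theorem coe_piInf : ((piInf K : ↥(DRH.Rinf K)) : RatFunc K) = (RatFunc.X : RatFunc K)⁻¹ := rfl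

theorem piInf_ne_zero : piInf K ≠ 0 := by
  intro h
  have := congrArg (Subtype.val) h
  rw [coe_piInf] at this
  exact inv_ne_zero RatFunc.X_ne_zero this

theorem X_notMem_Rinf : (RatFunc.X : RatFunc K) ∉ DRH.Rinf K := by
  rw [DRH.mem_Rinf, RatFunc.intDegree_X]
  norm_num

/-- `1 / X` lies in every maximal ideal of `𝒪_∞`. -/
theorem piInf_mem_of_isMaximal (P : Ideal ↥(DRH.Rinf K)) (hP : P.IsMaximal) : piInf K ∈ P := by
  by_contra hπ
  obtain ⟨h, u, huP, hu⟩ := hP.exists_inv hπ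
  have hX : (RatFunc.X : RatFunc K) ≠ 0 := RatFunc.X_ne_zero
  have hu' : (h : RatFunc K) * (RatFunc.X : RatFunc K)⁻¹ + (u : RatFunc K) = 1 := by
    have := congrArg Subtype.val hu
    push_cast at this
    rwa [coe_piInf] at this
  have hXu : (RatFunc.X : RatFunc K) * (u : RatFunc K) ∉ DRH.Rinf K := by
    intro hmem
    apply X_notMem_Rinf K
    have h1 : (RatFunc.X : RatFunc K) = (h : RatFunc K) + RatFunc.X * (u : RatFunc K) := by
      have h2 : (u : RatFunc K) = 1 - (h : RatFunc K) * (RatFunc.X : RatFunc K)⁻¹ := by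
        rw [← hu']; ring
      rw [h2, mul_sub, mul_one, mul_comm (h : RatFunc K), mul_inv_cancel_left₀ hX]
      ring
    rw [h1]
    exact (DRH.Rinf K).add_mem h.2 hmem
  have hu0 : (u : RatFunc K) ≠ 0 := by
    intro h0
    apply hXu
    rw [h0, mul_zero]
    exact (DRH.Rinf K).zero_mem
  have hinv : (u : RatFunc K)⁻¹ ∈ DRH.Rinf K := by
    rw [DRH.mem_Rinf, RatFunc.intDegree_mul RatFunc.X_ne_zero hu0, RatFunc.intDegree_X] at hXu
    rw [DRH.mem_Rinf, RatFunc.intDegree_inv]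
    omega
  apply hP.ne_top
  rw [Ideal.eq_top_iff_one]
  have h2 : (1 : ↥(DRH.Rinf K)) = ⟨_, hinv⟩ * u := by
    apply Subtype.ext
    push_cast
    rw [inv_mul_cancel₀ hu0]
  rw [h2]
  exact P.mul_mem_left _ huP

theorem exists_eq_add_mul_piInf (b : ↥(DRH.Rinf K)) :
    ∃ (c : K) (s : ↥(DRH.Rinf K)), b = algebraMap K ↥(DRH.Rinf K) c + s * piInf K := by
  obtain ⟨c, hc⟩ := (isP1_ratFunc K).const b b.2
  refine ⟨c, ⟨_, hc⟩, ?_⟩
  apply Subtype.ext
  push_cast
  rw [coe_piInf, mul_comm (RatFunc.X : RatFunc K), mul_assoc,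
    mul_inv_cancel₀ (RatFunc.X_ne_zero : (RatFunc.X : RatFunc K) ≠ 0), mul_one]
  ring

/-- All residue fields of `𝒪_∞` are `K`. -/
theorem resK_Rinf : DRH.ResK K ↥(DRH.Rinf K) := by
  intro P hP b
  obtain ⟨b, rfl⟩ := Ideal.Quotient.mk_surjective b
  obtain ⟨c, s, hb⟩ := exists_eq_add_mul_piInf K b
  refine ⟨c, ?_⟩
  rw [IsScalarTower.algebraMap_apply K ↥(DRH.Rinf K) (↥(DRH.Rinf K) ⧸ P),
    Ideal.Quotient.algebraMap_eq, eq_comm, Ideal.Quotient.eq, hb, add_sub_cancel_left]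
  exact P.mul_mem_left _ (piInf_mem_of_isMaximal K P hP)

/-- the ideal `(1/X)` of `𝒪_∞` is maximal. -/
theorem isMaximal_span_piInf : (Ideal.span {piInf K}).IsMaximal := by
  have hne : Ideal.span {piInf K} ≠ ⊤ := by
    intro h
    rw [Ideal.span_singleton_eq_top] at h
    obtain ⟨v, hv⟩ := h.exists_right_inv
    apply X_notMem_Rinf K
    have h1 : (RatFunc.X : RatFunc K) = (v : RatFunc K) := by
      have := congrArg Subtype.val hv
      push_cast at this
      rw [coe_piInf] at this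
      rw [← mul_one (RatFunc.X : RatFunc K), ← this,
        mul_inv_cancel_left₀ (RatFunc.X_ne_zero : (RatFunc.X : RatFunc K) ≠ 0)]
    rw [h1]
    exact v.2
  obtain ⟨M, hM, hle⟩ := Ideal.exists_le_maximal _ hne
  have : M ≤ Ideal.span {piInf K} := by
    intro b hb
    obtain ⟨c, s, hbc⟩ := exists_eq_add_mul_piInf K b
    have h2 : algebraMap K ↥(DRH.Rinf K) c ∈ M := by
      have h3 : algebraMap K ↥(DRH.Rinf K) c = b - s * piInf K := by rw [hbc]; ring
      rw [h3]
      exact M.sub_mem hb (M.mul_mem_left _ (piInf_mem_of_isMaximal K M hM))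
    have hc0 : c = 0 := by
      by_contra hc0
      apply hM.ne_top
      rw [Ideal.eq_top_iff_one]
      have h4 : (1 : ↥(DRH.Rinf K)) =
          algebraMap K ↥(DRH.Rinf K) c⁻¹ * algebraMap K ↥(DRH.Rinf K) c := by
        rw [← map_mul, inv_mul_cancel₀ hc0, map_one]
      rw [h4]
      exact M.mul_mem_left _ h2
    rw [hbc, hc0, map_zero, zero_add]
    exact Ideal.mul_mem_left _ _ (Ideal.mem_span_singleton_self _)
  rwa [le_antisymm hle this]

end Fermat.Agent.RED
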