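import Fermat.Agent.RED.DRH.Diff

/-!
# RED / RH : lower bound for the degree of the different of a semilocal Dedekind extension
-/

set_option autoImplicit false
set_option linter.unusedSectionVars false
set_option linter.style.haveILetI false

namespace Fermat.Agent.RED

open IsDedekindDomain Module

section count

variable (A : Type*) [CommRing A] [IsDedekindDomain A]
  (B : Type*) [CommRing B] [IsDedekindDomain B] [Algebra A B]
  [IsTorsionFree A B] [Module.Finite A B]

theorem primesOver_eq_image (w : HeightOneSpectrum A) :
    w.asIdeal.primesOver B =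
      HeightOneSpectrum.asIdeal '' {W : HeightOneSpectrum B | W.under A = w} := by
  ext P
  constructor
  · intro hP
    have hP0 : P ≠ ⊥ := Ideal.ne_bot_of_mem_primesOver w.ne_bot hP
    refine ⟨⟨P, hP.1, hP0⟩, ?_, rfl⟩
    apply HeightOneSpectrum.ext
    exact hP.2.over.symm
  · rintro ⟨W, hW, rfl⟩
    refine ⟨W.isPrime, ⟨?_⟩⟩
    have hW' : W.under A = w := hW
    rw [← hW']
    rfl

theorem sum_ncard_primesOver [Fintype (HeightOneSpectrum A)] [Finite (HeightOneSpectrum B)] :
    ∑ w : HeightOneSpectrum A, (w.asIdeal.primesOver B).ncard =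
      Nat.card (HeightOneSpectrum B) := by
  classical
  haveI := Fintype.ofFinite (HeightOneSpectrum B)
  rw [Nat.card_eq_fintype_card, ← Finset.card_univ,
    Finset.card_eq_sum_card_fiberwise (f := fun W : HeightOneSpectrum B => W.under A)
      (t := Finset.univ) (fun _ _ => Finset.mem_coe.2 (Finset.mem_univ _))]
  refine Finset.sum_congr rfl ?_
  intro w _
  rw [primesOver_eq_image, Set.ncard_image_of_injective _ (fun a b h => HeightOneSpectrum.ext h),
    ← Set.ncard_coe_finset]
  congr 1
  ext W
  simp

end count

variable (K : Type*) [Field K]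
  {A : Type*} [CommRing A] [IsDedekindDomain A] [Algebra K A]
  {B : Type*} [CommRing B] [IsDedekindDomain B] [Algebra K B] [Algebra A B] [IsScalarTower K A B]
  [IsTorsionFree A B] [Module.Finite A B]
  (E F : Type*) [Field E] [Field F] [Algebra A E] [IsFractionRing A E] [Algebra B F]
  [IsFractionRing B F] [Algebra E F] [Algebra A F] [IsScalarTower A E F] [IsScalarTower A B F]
  [Algebra.IsSeparable E F]

include E F in
/-- semilocal form of the lower bound `deg Diff ≥ ∑ (e - 1)`. -/
theorem card_sub_card_le_finrank_quotient_differentIdeal (hA : DRH.ResK K A) (hB : DRH.ResK K B)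
    [Finite (HeightOneSpectrum A)] [Finite (HeightOneSpectrum B)] :
    (finrank E F : ℤ) * Nat.card (HeightOneSpectrum A) - Nat.card (HeightOneSpectrum B) ≤
      (finrank K (B ⧸ differentIdeal A B) : ℤ) := by
  classical
  haveI := Fintype.ofFinite (HeightOneSpectrum A)
  have h := DRH.sum_le_finrank_quotient_differentIdeal K E F hA hB
    (Finset.univ.image (HeightOneSpectrum.asIdeal : HeightOneSpectrum A → Ideal A)) (by
      intro p hp
      obtain ⟨w, -, rfl⟩ := Finset.mem_image.1 hp
      exact ⟨w.isMaximal, w.ne_bot⟩)
  rw [Finset.sum_image (fun a _ b _ h => HeightOneSpectrum.ext h), Finset.sum_sub_distrib,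
    Finset.sum_const, Finset.card_univ, ← Nat.cast_sum, sum_ncard_primesOver A B, nsmul_eq_mul,
    ← Nat.card_eq_fintype_card] at h
  linarith

end Fermat.Agent.RED
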